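/-
S44lib / Q4 / NormP  (helper2)  — Project LSq, block Q4.

**Norm formula in any characteristic**: `ord_v (N_{F'/F} f) = ∑_{w ∣ v} ord_w f` for a finite SEPARABLE
extension `F' / F` of function fields over `K` whose places (of `F'`) all have degree one, in the
Prelude's form `Divisor.PushforwardNormFormula K F F'`.

`S37lib/Tower/NormFormula` (helper6) proves this for `CharZero F`; the characteristic is only used for
`Ideal.relNorm_eq_pow_of_isMaximal` (Mathlib wants a perfect fraction field).  Here the relative norm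
of a prime `P ∣ 𝔪_v` is computed directly: `relNorm P = 𝔪_v ^ s_P` with `s_P ≥ 1`
(`Ideal.exists_relNorm_eq_pow_of_isPrime`, `Ideal.relNorm_le_comap`), and
`∑ s_P e_P = [F' : F] = ∑ e_P` (`Ideal.relNorm_algebraMap`, `RHCount.sum_ramificationIdx_eq_finrank`),
hence all `s_P = 1`.  The rest is helper6's proof verbatim.

Used for the reduction `FRes A M ⊆ FRes A (M ℓ)` (characteristic `p`, `p ∤ M ℓ`) of the Hecke
correspondence `T_ℓ`.
-/
import Mathlib
import Fermat.Agent.S37lib.Tower.NormFormula

set_option autoImplicit false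
set_option linter.unusedSectionVars false
set_option linter.style.haveILetI false

noncomputable section

namespace Fermat.Agent.S44lib.Q4.TowerP

open Fermat.Agent.S37lib.Tower AlgebraicCurve IsDedekindDomain Module Fermat.Agent.ProgramR
  UniqueFactorizationMonoid WithZero

variable {K F F' : Type*} [Field K] [Field F] [Field F'] [Algebra K F] [Algebra K F']
  [Algebra F F'] [IsScalarTower K F F'] [FiniteDimensional F F'] [Algebra.IsSeparable F F']

variable (v : Place K F)

/-- powers of the maximal ideal of `O_v` are distinct -/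
theorem pv_pow_injective : Function.Injective (fun n : ℕ => pv v ^ n) := by
  intro a b hab
  have hne : pv v ≠ ⊥ := pv_ne_bot v
  have hirr : Irreducible (pv v) :=
    (Ideal.prime_of_isPrime hne inferInstance).irreducible
  have h1 := congrArg (fun I => (normalizedFactors I).count (pv v)) hab
  simpa [normalizedFactors_pow, normalizedFactors_irreducible hirr, Multiset.count_nsmul] using h1

/-- the relative norm of a nonzero prime of `S_v` is `𝔪_v` (residue degree one), in any
characteristic. -/
theorem relNorm_prime (hdeg' : ∀ w : Place K F', w.deg = 1)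
    (P : HeightOneSpectrum (Sv (F' := F') v)) :
    Ideal.relNorm v.toValuationSubring P.asIdeal = pv v := by
  classical
  have hp : pv v ≠ ⊥ := pv_ne_bot v
  -- the exponents
  have hex : ∀ Q : Ideal (Sv (F' := F') v), Q ∈ IsDedekindDomain.primesOverFinset (pv v) (Sv (F' := F') v) →
      ∃ s : ℕ, 1 ≤ s ∧ Ideal.relNorm v.toValuationSubring Q = pv v ^ s := by
    intro Q hQ
    have hQ' := (IsDedekindDomain.mem_primesOverFinset_iff hp (Sv (F' := F') v)).mp hQ
    haveI := hQ'.1
    haveI := hQ'.2
    obtain ⟨s, hs⟩ := Ideal.exists_relNorm_eq_pow_of_isPrime Q (pv v)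
    refine ⟨s, ?_, hs⟩
    by_contra h0
    have hs0 : s = 0 := by omega
    subst hs0
    rw [pow_zero, Ideal.one_eq_top] at hs
    have hle := Ideal.relNorm_le_comap v.toValuationSubring Q
    rw [hs, top_le_iff, Ideal.comap_eq_top_iff] at hle
    exact hQ'.1.ne_top hle
  choose! s hs1 hs using hex
  -- factorisation of `𝔪_v S_v`
  have hmap : (pv v).map (algebraMap v.toValuationSubring (Sv (F' := F') v)) ≠ ⊥ := map_pv_ne_bot v
  have hfac : (pv v).map (algebraMap v.toValuationSubring (Sv (F' := F') v)) =
      ∏ Q ∈ IsDedekindDomain.primesOverFinset (pv v) (Sv (F' := F') v), Q ^ Q.ramificationIdx v.toValuationSubring := by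
    conv_lhs => rw [← Ideal.prod_normalizedFactors_eq_self hmap]
    rw [Finset.prod_multiset_count, ← factors_eq_normalizedFactors]
    refine Finset.prod_congr rfl fun Q hQ => ?_
    have hQ' := (IsDedekindDomain.mem_primesOverFinset_iff hp (Sv (F' := F') v)).mp hQ
    haveI := hQ'.1
    haveI := hQ'.2
    rw [Ideal.IsDedekindDomain.ramificationIdx_eq_factors_count (pv v) Q hmap]
  -- apply the relative norm
  have h1 := congrArg (Ideal.relNorm v.toValuationSubring) hfac
  rw [Ideal.relNorm_algebraMap (Sv (F' := F') v), map_prod] at h1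
  have h2 : ∏ Q ∈ IsDedekindDomain.primesOverFinset (pv v) (Sv (F' := F') v),
      Ideal.relNorm v.toValuationSubring (Q ^ Q.ramificationIdx v.toValuationSubring) =
      pv v ^ ∑ Q ∈ IsDedekindDomain.primesOverFinset (pv v) (Sv (F' := F') v),
        s Q * Q.ramificationIdx v.toValuationSubring := by
    rw [← Finset.prod_pow_eq_pow_sum]
    refine Finset.prod_congr rfl fun Q hQ => ?_
    rw [map_pow, hs Q hQ, ← pow_mul]
  rw [h2] at h1
  have h3 := pv_pow_injective v h1
  -- all inertia degrees are one
  have hf : ∀ Q : Ideal (Sv (F' := F') v), Q.IsPrime → Q ≠ ⊥ →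
      Q.inertiaDeg v.toValuationSubring = 1 := fun Q hQ hQ0 =>
    inertiaDeg_eq_one v hdeg' ⟨Q, hQ, hQ0⟩
  have hsum := Fermat.Agent.S18lib.RHCount.sum_ramificationIdx_eq_finrank v.toValuationSubring
    hf (pv_ne_bot v)
  -- conclusion
  have hPmem : P.asIdeal ∈ IsDedekindDomain.primesOverFinset (pv v) (Sv (F' := F') v) :=
    (IsDedekindDomain.mem_primesOverFinset_iff hp (Sv (F' := F') v)).mpr (asIdeal_mem_primesOver v P)
  have hs1' : s P.asIdeal = 1 := by
    by_contra hne
    have h2le : 2 ≤ s P.asIdeal := by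
      have := hs1 _ hPmem
      omega
    have hepos : ∀ Q ∈ IsDedekindDomain.primesOverFinset (pv v) (Sv (F' := F') v),
        0 < Q.ramificationIdx v.toValuationSubring := by
      intro Q hQ
      have hQ' := (IsDedekindDomain.mem_primesOverFinset_iff hp (Sv (F' := F') v)).mp hQ
      haveI := hQ'.1
      exact Ideal.ramificationIdx_pos (R := v.toValuationSubring) (q := Q)
    have hlt : ∑ Q ∈ IsDedekindDomain.primesOverFinset (pv v) (Sv (F' := F') v),
        Q.ramificationIdx v.toValuationSubring <
        ∑ Q ∈ IsDedekindDomain.primesOverFinset (pv v) (Sv (F' := F') v),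
          s Q * Q.ramificationIdx v.toValuationSubring := by
      refine Finset.sum_lt_sum (fun Q hQ => ?_) ⟨P.asIdeal, hPmem, ?_⟩
      · exact Nat.le_mul_of_pos_left _ (hs1 Q hQ)
      · have := hepos _ hPmem
        nlinarith
    rw [hsum, ← h3] at hlt
    exact lt_irrefl _ hlt
  rw [hs _ hPmem, hs1', pow_one]

/-- every normalized factor of a nonzero ideal of `S_v` is a height one prime. -/
theorem specOfFactor {I : Ideal (Sv (F' := F') v)} {P : Ideal (Sv (F' := F') v)}
    (hP : P ∈ normalizedFactors I) : ∃ Q : HeightOneSpectrum (Sv (F' := F') v), Q.asIdeal = P := by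
  have hprime := prime_of_normalized_factor P hP
  exact ⟨⟨P, Ideal.isPrime_of_prime hprime, hprime.ne_zero⟩, rfl⟩

/-- `(N s) = 𝔪_v ^ (number of prime factors of (s))`. -/
theorem span_intNorm (hdeg' : ∀ w : Place K F', w.deg = 1) {s : Sv (F' := F') v} (hs : s ≠ 0) :
    Ideal.span {Algebra.intNorm v.toValuationSubring (Sv (F' := F') v) s} =
      pv v ^ Multiset.card (normalizedFactors (Ideal.span {s})) := by
  have hne : (Ideal.span {s} : Ideal (Sv (F' := F') v)) ≠ 0 :=
    Submodule.span_singleton_eq_bot.mp.mt hs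
  rw [← Ideal.relNorm_singleton]
  conv_lhs => rw [← Ideal.prod_normalizedFactors_eq_self hne]
  rw [map_multiset_prod]
  have hrep : (normalizedFactors (Ideal.span {s})).map (Ideal.relNorm v.toValuationSubring) =
      Multiset.replicate (Multiset.card (normalizedFactors (Ideal.span {s}))) (pv v) := by
    rw [Multiset.eq_replicate]
    refine ⟨Multiset.card_map _ _, fun b hb => ?_⟩
    obtain ⟨P, hP, rfl⟩ := Multiset.mem_map.mp hb
    obtain ⟨Q, rfl⟩ := specOfFactor v hP
    exact relNorm_prime v hdeg' Q
  rw [hrep, Multiset.prod_replicate]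

/-- the norm formula for elements of `S_v`. -/
theorem ord_norm_algebraMap [HasPrincipalDivisors K F'] (hdeg' : ∀ w : Place K F', w.deg = 1)
    {s : Sv (F' := F') v} (hs : s ≠ 0) :
    v.ord (Algebra.norm F (algebraMap (Sv (F' := F') v) F' s)) =
      ∑ w ∈ v.fiber F', w.ord (algebraMap (Sv (F' := F') v) F' s) := by
  classical
  -- left hand side
  have hL : v.ord (Algebra.norm F (algebraMap (Sv (F' := F') v) F' s)) =
      Multiset.card (normalizedFactors (Ideal.span {s})) := by
    rw [← Algebra.algebraMap_intNorm (A := v.toValuationSubring) (B := Sv (F' := F') v)]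
    exact ord_coe_of_span_eq_pow v (span_intNorm v hdeg' hs)
  -- right hand side
  have hR := sum_fiber_eq_sum_primesOver (F' := F') v (M := ℤ)
    (fun w : Place K F' => w.ord (algebraMap (Sv (F' := F') v) F' s))
    (fun P : Ideal (Sv (F' := F') v) => ((normalizedFactors (Ideal.span {s})).count P : ℤ))
    (fun P => FF.ord_algebraMap_eq_count (K := K) (F := F') P hs)
  rw [hL, hR, ← Nat.cast_sum]
  congr 1
  symm
  refine Fermat.Agent.S18lib.RHCount.sum_count_eq_card fun P hP => ?_
  rw [Multiset.mem_toFinset] at hP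
  obtain ⟨Q, rfl⟩ := specOfFactor v hP
  exact (IsDedekindDomain.mem_primesOverFinset_iff (pv_ne_bot v) (Sv (F' := F') v)).mpr
    (asIdeal_mem_primesOver v Q)

theorem ord_div (w : Place K F') {a b : F'} (ha : a ≠ 0) (hb : b ≠ 0) :
    w.ord (a / b) = w.ord a - w.ord b := by
  rw [div_eq_mul_inv, w.ord_mul ha (inv_ne_zero hb), w.ord_inv, sub_eq_add_neg]

/-- the norm formula for all nonzero elements of `F'`. -/
theorem ord_norm [HasPrincipalDivisors K F'] (hdeg' : ∀ w : Place K F', w.deg = 1)
    {f : F'} (hf : f ≠ 0) :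
    v.ord (Algebra.norm F f) = ∑ w ∈ v.fiber F', w.ord f := by
  obtain ⟨s, t, ht, rfl⟩ := IsFractionRing.div_surjective (A := Sv (F' := F') v) f
  have ht0 : t ≠ 0 := nonZeroDivisors.ne_zero ht
  have hs0 : s ≠ 0 := by
    rintro rfl
    rw [map_zero, zero_div] at hf
    exact hf rfl
  have hinj : Function.Injective (algebraMap (Sv (F' := F') v) F') :=
    IsFractionRing.injective _ _
  have hs' : algebraMap (Sv (F' := F') v) F' s ≠ 0 := by rwa [Ne, map_eq_zero_iff _ hinj]
  have ht' : algebraMap (Sv (F' := F') v) F' t ≠ 0 := by rwa [Ne, map_eq_zero_iff _ hinj]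
  have hNs : Algebra.norm F (algebraMap (Sv (F' := F') v) F' s) ≠ 0 :=
    Algebra.norm_ne_zero_iff.mpr hs'
  have hNt : Algebra.norm F (algebraMap (Sv (F' := F') v) F' t) ≠ 0 :=
    Algebra.norm_ne_zero_iff.mpr ht'
  have hN : Algebra.norm F (algebraMap (Sv (F' := F') v) F' s / algebraMap (Sv (F' := F') v) F' t) =
      Algebra.norm F (algebraMap (Sv (F' := F') v) F' s) /
        Algebra.norm F (algebraMap (Sv (F' := F') v) F' t) := by
    rw [eq_div_iff hNt, ← map_mul, div_mul_cancel₀ _ ht']
  rw [hN, div_eq_mul_inv, v.ord_mul hNs (inv_ne_zero hNt), v.ord_inv,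
    ord_norm_algebraMap v hdeg' hs0, ord_norm_algebraMap v hdeg' ht0, ← sub_eq_add_neg,
    ← Finset.sum_sub_distrib]
  refine Finset.sum_congr rfl fun w _ => ?_
  exact (ord_div w hs' ht').symm

/-- **Norm formula**, Prelude form. -/
theorem pushforwardNormFormula [HasPrincipalDivisors K F']
    (hdeg' : ∀ w : Place K F', w.deg = 1) : Divisor.PushforwardNormFormula K F F' := by
  intro f hf D hD v
  classical
  rw [Divisor.pushforward_apply, ord_norm v hdeg' hf, ← Finset.sum_filter]
  have hsub : D.support.filter (fun w => w.restrict F = v) ⊆ v.fiber F' := by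
    intro w hw
    exact Place.mem_fiber.mpr (Finset.mem_filter.mp hw).2
  rw [← Finset.sum_subset hsub]
  · refine Finset.sum_congr rfl fun w _ => ?_
    rw [prelude_inertiaDeg_eq_one hdeg' w, Nat.cast_one, mul_one, hD w]
  · intro w hw hw'
    have hnot : w ∉ D.support := fun h =>
      hw' (Finset.mem_filter.mpr ⟨h, Place.mem_fiber.mp hw⟩)
    rw [← hD w]
    exact Finsupp.notMem_support_iff.mp hnot


end Fermat.Agent.S44lib.Q4.TowerP
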