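/-
S44lib / Q4 / HeckeK  (helper2)  — Project LSq, block Q4.

**The Hecke correspondence `T̄_ℓ` on the reduction `FRes A M`** (characteristic `p`, `A` a valuation
ring of `Q̄` above `p`, `p ∤ M ℓ`, `ℓ ∤ M` prime):

* `alphaK A M ℓ = V.inclK` (inclusion), `betaK A M ℓ` (`q ↦ q^ℓ`, `ConjNorm.betaC` as a `k`-algebra
  map) `: FRes A M →ₐ[k] FRes A (M ℓ)`;
* finiteness / integrality along both, separability and degree `ℓ + 1` along `alphaK`;
* `normFormulaAlong_alphaK` : the norm formula along `alphaK` (`Q4.TowerP`, any characteristic);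
* `heckeDivK = Divisor.correspondence betaK alphaK = ᾱ_* β̄^*` on `Div (FRes A M)`, and
  `heckeDivK_divOf : T̄_ℓ (div f) = div (N_ᾱ (β̄ f))`.
-/
import Fermat.Agent.S44lib.Q4.NormP
import Fermat.Agent.S37lib.ConjNorm.Inst
import Fermat.Agent.S37lib.B3.InstBase
import Fermat.Agent.S37lib.ES.CorrDiv

set_option autoImplicit false
set_option linter.unusedSectionVars false
set_option linter.style.haveILetI false

noncomputable section

namespace Fermat.Agent.S44lib.Q4

open AlgebraicCurve ModularCurve IntermediateField Fermat.Agent.S18lib Fermat.Agent.S37lib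
open Fermat.Agent.ProgramR

local notation "Qb" => AlgebraicClosure ℚ

variable (A : ValuationSubring (AlgebraicClosure ℚ)) (M ℓ : ℕ) [NeZero M] [NeZero ℓ]

local notation "kA" => IsLocalRing.ResidueField A

/-- `ᾱ : FRes A M → FRes A (M ℓ)`, the inclusion -/
def alphaK : FRes A M →ₐ[kA] FRes A (M * ℓ) := V.inclK A (Dvd.intro ℓ rfl)

/-- `β̄ : FRes A M → FRes A (M ℓ)`, `f(q) ↦ f(q^ℓ)` -/
def betaK : FRes A M →ₐ[kA] FRes A (M * ℓ) :=
  { ConjNorm.betaC (k := kA) M ℓ with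
    commutes' := fun c => ConjNorm.betaC_const (k := kA) M ℓ c }

@[simp] theorem coe_alphaK (x : FRes A M) :
    ((alphaK A M ℓ x : FRes A (M * ℓ)) : LaurentSeries kA) = (x : LaurentSeries kA) :=
  V.coe_inclK A _ x

@[simp] theorem coe_betaK (x : FRes A M) :
    ((betaK A M ℓ x : FRes A (M * ℓ)) : LaurentSeries kA) = qExpand kA ℓ (x : LaurentSeries kA) :=
  rfl

theorem alphaK_jK : alphaK A M ℓ (Gink.jK A M) = Gink.jK A (M * ℓ) :=
  V.inclK_jK A (Dvd.intro ℓ rfl)

/-- finiteness along `ᾱ` -/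
theorem finiteAlong_alphaK : FiniteAlong kA (alphaK A M ℓ) :=
  HeckeInst.finite_along (alphaK A M ℓ) (Gink.jK A M) (Gink.jK A (M * ℓ)) (alphaK_jK A M ℓ)

/-- finiteness along `β̄` -/
theorem finiteAlong_betaK : FiniteAlong kA (betaK A M ℓ) := by
  haveI : FiniteDimensional kA⟮betaK A M ℓ (Gink.jK A M)⟯ (FRes A (M * ℓ)) :=
    FF.finiteDimensional_adjoin_of_transcendental (Gink.jK A (M * ℓ))
      (HeckeInst.transcendental_map _ (Gink.transcendental_jK A M))
  exact HeckeInst.finite_along (betaK A M ℓ) (Gink.jK A M) _ rfl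

theorem alphaK_integral : (alphaK A M ℓ).toRingHom.IsIntegral :=
  HeckeInst.isIntegral_toRingHom_of_finite _ (finiteAlong_alphaK A M ℓ)

theorem betaK_integral : (betaK A M ℓ).toRingHom.IsIntegral :=
  HeckeInst.isIntegral_toRingHom_of_finite _ (finiteAlong_betaK A M ℓ)

section CharP

variable {p : ℕ} [Fact p.Prime] (hA : A.LiesOverPrime p) (hpMℓ : ¬ p ∣ M * ℓ)

include hA hpMℓ in
/-- `FRes A (M ℓ) / FRes A M` is separable along `ᾱ` (`p ∤ M ℓ`) -/
theorem isSeparable_alphaK :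
    @Algebra.IsSeparable (FRes A M) (FRes A (M * ℓ)) _ _ (algebraAlong (alphaK A M ℓ)) :=
  B3.isSeparable_levelK A (Dvd.intro ℓ rfl) hpMℓ hA

include hA hpMℓ in
/-- `[FRes A (M ℓ) : FRes A M] = ℓ + 1` along `ᾱ` (`ℓ ∤ M` prime, `p ∤ M ℓ`) -/
theorem finrank_alphaK (hℓ : ℓ.Prime) (hℓM : ¬ ℓ ∣ M) :
    @Module.finrank (FRes A M) (FRes A (M * ℓ)) _ _ (algebraAlong (alphaK A M ℓ)).toModule =
      ℓ + 1 := by
  have h1 := V.dedekindPsi_mul_finrank_inclK (N := M) (N' := M * ℓ) A (Dvd.intro ℓ rfl) hpMℓ hA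
  rw [Fermat.Agent.S28lib.Chain.dedekindPsi_mul_prime_of_not_dvd (NeZero.ne M) hℓ hℓM] at h1
  have hpos : 0 < dedekindPsi M := Fermat.Agent.ProgramR.BarField.dedekindPsi_pos M
  exact Nat.eq_of_mul_eq_mul_left hpos h1

variable [HasPrincipalDivisors (IsLocalRing.ResidueField A) (FRes A (M * ℓ))]

include hA hpMℓ in
/-- **the norm formula along `ᾱ`** in characteristic `p` -/
theorem normFormulaAlong_alphaK (hdeg : ∀ w : Place kA (FRes A (M * ℓ)), w.deg = 1) :
    NormFormulaAlong kA (alphaK A M ℓ) (finiteAlong_alphaK A M ℓ) := by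
  letI := algebraAlong (alphaK A M ℓ)
  letI : Module (FRes A M) (FRes A (M * ℓ)) := (algebraAlong (alphaK A M ℓ)).toModule
  haveI := isScalarTower_along (alphaK A M ℓ)
  haveI : Module.Finite (FRes A M) (FRes A (M * ℓ)) := finiteAlong_alphaK A M ℓ
  haveI : Algebra.IsSeparable (FRes A M) (FRes A (M * ℓ)) := isSeparable_alphaK A M ℓ hA hpMℓ
  exact TowerP.pushforwardNormFormula hdeg

/-- **`T̄_ℓ = ᾱ_* β̄^*` on the divisors of the reduction** -/
def heckeDivK : Divisor kA (FRes A M) →+ Divisor kA (FRes A M) :=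
  Divisor.correspondence (betaK A M ℓ) (alphaK A M ℓ) (betaK_integral A M ℓ) (alphaK_integral A M ℓ)

include hA hpMℓ in
/-- `T̄_ℓ (div f) = div (N_ᾱ (β̄ f))` -/
theorem heckeDivK_apply_eq_ord (hdeg : ∀ w : Place kA (FRes A (M * ℓ)), w.deg = 1)
    {f : FRes A M} (hf : f ≠ 0) {E : Divisor kA (FRes A M)}
    (hE : ∀ v : Place kA (FRes A M), E v = v.ord f) (v : Place kA (FRes A M)) :
    heckeDivK A M ℓ E v = v.ord (ES.normAlong (alphaK A M ℓ) (betaK A M ℓ f)) :=
  ES.correspondence_apply_eq_ord (betaK A M ℓ) (alphaK A M ℓ) (betaK_integral A M ℓ)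
    (alphaK_integral A M ℓ) (finiteAlong_alphaK A M ℓ)
    (normFormulaAlong_alphaK A M ℓ hA hpMℓ hdeg) hf hE v

end CharP

end Fermat.Agent.S44lib.Q4
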