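/-
S44lib / Q4 / Abs  (helper2)  — Project LSq, block Q4 "Eisenstein", abstract part.

Over an abstract nodal reduction datum `D : N.NRedDatum A F F₁ F₂` (S33lib) and a prime `p`:

* `nodeMatrix x T c c'`  : the matrix, on a finite family of places `x` (the nodes of the first
                           component), of an additive endomorphism `T` of `Div F₁` (for us
                           `T = ᾱ_* β̄^*`, the reduction of the Hecke correspondence `T_ℓ`; the matrix
                           is a Brandt matrix);
* `apply_node_divOf_redF`: **(E1-core)**  if `div h = p • D₀` and `red₁ h ≠ 0` then modulo `p`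
                           `T (div (red₁ h)) (x₁ c) = ∑ c', nodeMatrix c c' * ord_{x₁ c'} (red₁ h)`
                           (the non-node points contribute multiples of `p`, by (LC) `D.cons₁`);
* `sum_nodeMatrix_mul_ord`: **(E2-core)** if `T (div H) = e • div H` and `T` maps the non-node part
                           of `div H` to divisors avoiding the nodes, then
                           `∑ c', nodeMatrix c c' * ord_{x₁ c'} H = e * ord_{x₁ c} H`;
* `eisenstein_dichotomy` : **(Q4a)** linear algebra: `v ∈ 𝔽_p · m`, `B m = e m`, `B v = a v`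
                           imply `v = 0` or `a = e`.
-/
import Fermat.Agent.S33lib.N.Datum

set_option autoImplicit false

noncomputable section

namespace Fermat.Agent.S44lib.Q4

open AlgebraicCurve Fermat.Agent.S18lib Fermat.Agent.S33lib

/-! ### (Q4a) linear algebra -/

/-- **(Q4a)**: an eigenvector of `B` which is a multiple of an eigenvector `m` with eigenvalue `e`
is zero, or has eigenvalue `e`. (`B` only has to be homogeneous on the line spanned by `m`.) -/
theorem eisenstein_dichotomy {ι R : Type*} [Field R] (B : (ι → R) → (ι → R)) (m v : ι → R)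
    (e a lam : R) (hv : v = lam • m) (hBhom : B (lam • m) = lam • B m) (hBm : B m = e • m)
    (hBv : B v = a • v) : v = 0 ∨ a = e := by
  by_cases h0 : v = 0
  · exact Or.inl h0
  · right
    have h1 : a • v = e • v := by
      rw [← hBv, hv, hBhom, hBm, smul_comm]
    have h2 : (a - e) • v = 0 := by rw [sub_smul, h1, sub_self]
    rcases smul_eq_zero.mp h2 with h | h
    · exact sub_eq_zero.mp h
    · exact absurd h h0

/-! ### the matrix of an endomorphism of `Div F` on a finite family of places -/

section Family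

variable {K F : Type*} [Field K] [Field F] [Algebra K F]
variable {ι : Type*} [Fintype ι]

/-- the matrix of `T : Div F → Div F` on the family of places `x`:
`nodeMatrix x T c c' = T (x c') (x c)` -/
def nodeMatrix (x : ι → Place K F) (T : Divisor K F →+ Divisor K F) (c c' : ι) : ℤ :=
  T (Finsupp.single (x c') 1) (x c)

/-- a divisor is the sum of its points -/
theorem map_eq_sum_single (T : Divisor K F →+ Divisor K F) (E : Divisor K F) (Q : Place K F) :
    T E Q = ∑ Q' ∈ E.support, E Q' * T (Finsupp.single Q' 1) Q := by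
  classical
  conv_lhs => rw [← Finsupp.sum_single E]
  rw [Finsupp.sum, map_sum, Finsupp.finsetSum_apply]
  refine Finset.sum_congr rfl fun Q' _ => ?_
  have h1 : (Finsupp.single Q' (E Q') : Divisor K F) = E Q' • Finsupp.single Q' (1 : ℤ) := by
    rw [Finsupp.smul_single, smul_eq_mul, mul_one]
  rw [h1, map_zsmul, Finsupp.smul_apply, smul_eq_mul]

/-- the points of a finset of places which belong to the family, as a sum over the index -/
theorem sum_nodes_eq {x : ι → Place K F} (hx : Function.Injective x) (S : Finset (Place K F))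
    [DecidablePred fun Q : Place K F => ∃ c, Q = x c]
    {M : Type*} [AddCommMonoid M] (f : Place K F → M) (hf : ∀ Q, Q ∉ S → f Q = 0) :
    ∑ Q ∈ S with (∃ c, Q = x c), f Q = ∑ c : ι, f (x c) := by
  classical
  have h1 : ∑ c : ι, f (x c) = ∑ c ∈ Finset.univ.filter (fun c => x c ∈ S), f (x c) := by
    rw [Finset.sum_filter]
    refine Finset.sum_congr rfl fun c _ => ?_
    split_ifs with h
    · rfl
    · exact hf _ h
  rw [h1]
  symm
  refine Finset.sum_bij (fun c _ => x c) ?_ ?_ ?_ ?_
  · intro c hc
    rw [Finset.mem_filter] at hc ⊢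
    exact ⟨hc.2, c, rfl⟩
  · intro c _ c' _ h
    exact hx h
  · intro Q hQ
    rw [Finset.mem_filter] at hQ
    obtain ⟨hQS, c, rfl⟩ := hQ
    exact ⟨c, Finset.mem_filter.mpr ⟨Finset.mem_univ _, hQS⟩, rfl⟩
  · intro c _
    rfl

variable [HasPrincipalDivisors K F]

/-- **(E2-core)**: if `T (div H) = e • div H` and `T` maps the points of `div H` outside the family
`x` to divisors avoiding the family, then the vector `(ord_{x c} H)_c` is an eigenvector of the
matrix of `T` on the family, with eigenvalue `e`. -/
theorem sum_nodeMatrix_mul_ord {x : ι → Place K F} (hx : Function.Injective x)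
    (T : Divisor K F →+ Divisor K F) {H : F} (e : ℤ)
    (hT : T (divOf (K := K) H) = e • divOf (K := K) H)
    (hcusp : ∀ Q : Place K F, Q.ord H ≠ 0 → (∀ c, Q ≠ x c) →
      ∀ c, T (Finsupp.single Q 1) (x c) = 0) (c : ι) :
    ∑ c' : ι, nodeMatrix x T c c' * (x c').ord H = e * (x c).ord H := by
  classical
  have h0 := congrArg (fun E : Divisor K F => E (x c)) hT
  simp only [Finsupp.smul_apply, smul_eq_mul, divOf_apply'] at h0
  rw [← h0, map_eq_sum_single T (divOf (K := K) H) (x c),
    ← Finset.sum_filter_add_sum_filter_not (divOf (K := K) H).support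
      (fun Q => ∃ c', Q = x c')]
  have hnon : ∑ Q ∈ (divOf (K := K) H).support with ¬ ∃ c', Q = x c',
      (divOf (K := K) H) Q * T (Finsupp.single Q 1) (x c) = 0 := by
    refine Finset.sum_eq_zero fun Q hQ => ?_
    rw [Finset.mem_filter, Finsupp.mem_support_iff, divOf_apply'] at hQ
    rw [hcusp Q hQ.1 (fun c' h' => hQ.2 ⟨c', h'⟩) c, mul_zero]
  rw [hnon, add_zero]
  have key := sum_nodes_eq hx (divOf (K := K) H).support
    (fun Q => (divOf (K := K) H) Q * T (Finsupp.single Q 1) (x c)) ?_
  · rw [key]
    refine Finset.sum_congr rfl fun c' _ => ?_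
    rw [divOf_apply', nodeMatrix, mul_comm]
  · intro Q hQ
    rw [Finsupp.notMem_support_iff.mp hQ, zero_mul]

end Family

/-! ### (E1-core) over a nodal reduction datum -/

section Node

variable {L : Type*} [Field L] {A : ValuationSubring L}
variable {F : Type*} [Field F] [Algebra L F] [HasPrincipalDivisors L F]
variable {F₁ F₂ : Type*} [Field F₁] [Field F₂]
variable [Algebra (IsLocalRing.ResidueField A) F₁] [Algebra (IsLocalRing.ResidueField A) F₂]

local notation "k" => IsLocalRing.ResidueField A

variable (D : N.NRedDatum A F F₁ F₂)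

/-- **(LC) at a non-node point**: if `div h = p • D₀` and `red₁ h ≠ 0`, the order of `red₁ h` at a
point which is not a node is divisible by `p`. -/
theorem ord_redF_eq_mul_of_not_node {p : ℤ} {D₀ : Divisor L F} {h : F}
    (hh : D.nod.V₁.redF h ≠ 0) (hord : ∀ P : Place L F, P.ord h = p * D₀ P)
    {Q : Place k F₁} (hQ : ∀ c, Q ≠ D.nod.x₁ c) :
    Q.ord (D.nod.V₁.redF h) = p * D.push₁ D₀ Q := by
  obtain ⟨P₀, hP₀⟩ := D.r_surj₁ Q hQ
  rw [← D.cons₁ h hh P₀ Q hP₀]
  have h1 : divOf (K := L) h = p • D₀ := by
    ext P
    rw [divOf_apply', Finsupp.smul_apply, smul_eq_mul, hord]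
  rw [h1, map_zsmul, Finsupp.smul_apply, smul_eq_mul]

variable [HasPrincipalDivisors (IsLocalRing.ResidueField A) F₁]

/-- **(E1-core)**: modulo `p`, the value at a node of `T (div (red₁ h))`, `div h = p • D₀`, only
depends on the orders of `red₁ h` at the nodes, through the node matrix of `T`. -/
theorem apply_node_divOf_redF (hx : Function.Injective D.nod.x₁) (p : ℕ) {D₀ : Divisor L F}
    {h : F} (hh : D.nod.V₁.redF h ≠ 0) (hord : ∀ P : Place L F, P.ord h = (p : ℤ) * D₀ P)
    (T : Divisor k F₁ →+ Divisor k F₁) (c : Fin D.nod.s) :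
    ((T (divOf (K := k) (D.nod.V₁.redF h)) (D.nod.x₁ c) : ℤ) : ZMod p) =
      ∑ c' : Fin D.nod.s, ((nodeMatrix D.nod.x₁ T c c' : ℤ) : ZMod p) *
        (((D.nod.x₁ c').ord (D.nod.V₁.redF h) : ℤ) : ZMod p) := by
  classical
  set f := D.nod.V₁.redF h with hf
  rw [map_eq_sum_single T (divOf (K := k) f) (D.nod.x₁ c),
    ← Finset.sum_filter_add_sum_filter_not (divOf (K := k) f).support
      (fun Q => ∃ c', Q = D.nod.x₁ c')]
  push_cast
  have hnon : ∑ Q ∈ (divOf (K := k) f).support with ¬ ∃ c', Q = D.nod.x₁ c',
      (((divOf (K := k) f) Q : ℤ) : ZMod p) *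
        ((T (Finsupp.single Q 1) (D.nod.x₁ c) : ℤ) : ZMod p) = 0 := by
    refine Finset.sum_eq_zero fun Q hQ => ?_
    rw [Finset.mem_filter] at hQ
    have hQ' : ∀ c', Q ≠ D.nod.x₁ c' := fun c' h' => hQ.2 ⟨c', h'⟩
    rw [divOf_apply', ord_redF_eq_mul_of_not_node D hh hord hQ']
    push_cast
    rw [ZMod.natCast_self, zero_mul, zero_mul]
  rw [hnon, add_zero]
  have key := sum_nodes_eq hx (divOf (K := k) f).support
    (fun Q => (((divOf (K := k) f) Q : ℤ) : ZMod p) *
      ((T (Finsupp.single Q 1) (D.nod.x₁ c) : ℤ) : ZMod p)) ?_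
  · rw [key]
    refine Finset.sum_congr rfl fun c' _ => ?_
    rw [divOf_apply', nodeMatrix, mul_comm]
  · intro Q hQ
    rw [Finsupp.notMem_support_iff.mp hQ, Int.cast_zero, zero_mul]

end Node

end Fermat.Agent.S44lib.Q4
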