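/-
S44lib / Q4 / EtaProd  (helper2)  — Project LSq, block Q4.

**The Euler product under the norm `∏_{i < ℓ} (X ↦ ζ^i X)`** (formal, over any commutative ring):
for `E = ∏_{n ≥ 1} (1 - X^n)` and `ζ` with `∏_{i<ℓ} (1 - ζ^(i n) Y) = 1 - Y^ℓ` for `ℓ ∤ n`
(e.g. a primitive `ℓ`-th root of unity in a domain, `ℓ` prime) and `ζ^ℓ = 1`:

  `(∏_{i < ℓ} E(ζ^i X)) · E(X^(ℓ²)) = E(X^ℓ)^(ℓ+1)`.

This is the formal content of "`N_α (β Δ) = ± Δ^(ℓ+1)`", i.e. of the fact that the Hecke operator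
`T_ℓ` acts on the supersingular divisor `div (Δ̄^(1-p))` by `ℓ + 1`.
-/
import Mathlib
import Fermat.Prelude.Def_ModularCurve_X0

set_option autoImplicit false

noncomputable section

namespace Fermat.Agent.S44lib.Q4.EtaProd

open PowerSeries Filter Topology

/-! ### continuity for the coefficientwise topology, discrete coefficients -/

section Top

open scoped PowerSeries.WithPiTopology

variable {R S : Type*} [CommRing R] [CommRing S] [TopologicalSpace R] [TopologicalSpace S]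

/-- a map of power series is continuous as soon as all coefficients of the image are -/
theorem continuous_of_coeff {Y : Type*} [TopologicalSpace Y] (g : Y → S⟦X⟧)
    (h : ∀ n, Continuous fun y => coeff n (g y)) : Continuous g := by
  rw [continuous_iff_continuousAt]
  intro y
  rw [ContinuousAt, PowerSeries.WithPiTopology.tendsto_iff_coeff_tendsto]
  intro d
  exact (h d).continuousAt

variable [DiscreteTopology R]

/-- a map of power series each of whose output coefficients is a function of one input coefficient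
is continuous (discrete coefficients) -/
theorem continuous_of_coeff_eq (g : R⟦X⟧ → S⟦X⟧) (m : ℕ → ℕ) (F : ℕ → R → S)
    (h : ∀ n φ, coeff n (g φ) = F n (coeff (m n) φ)) : Continuous g := by
  refine continuous_of_coeff g fun n => ?_
  have : (fun φ : R⟦X⟧ => coeff n (g φ)) = F n ∘ fun φ => coeff (m n) φ := by
    funext φ
    exact h n φ
  rw [this]
  exact continuous_of_discreteTopology.comp (PowerSeries.WithPiTopology.continuous_coeff R (m n))

theorem continuous_rescale (a : R) : Continuous (rescale a : R⟦X⟧ → R⟦X⟧) :=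
  continuous_of_coeff_eq _ (fun n => n) (fun n r => a ^ n * r) fun n φ => coeff_rescale φ a n

theorem continuous_expand (d : ℕ) (hd : d ≠ 0) : Continuous (expand d hd : R⟦X⟧ → R⟦X⟧) :=
  continuous_of_coeff_eq _ (fun n => n / d) (fun n r => if d ∣ n then r else 0) fun _ φ =>
    coeff_expand d hd φ

theorem continuous_map (f : R →+* S) : Continuous (PowerSeries.map f : R⟦X⟧ → S⟦X⟧) :=
  continuous_of_coeff_eq _ (fun n => n) (fun _ r => f r) fun n φ => coeff_map f n φ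

end Top

/-! ### roots of unity -/

section Roots

variable {D : Type*} [CommRing D] [IsDomain D]

/-- `∏_{i < ℓ} (1 - ξ^i y) = 1 - y^ℓ` for a primitive `ℓ`-th root of unity `ξ` of a domain -/
theorem prod_one_sub_pow_mul {ξ : D} {ℓ : ℕ} (hℓ : 0 < ℓ) (hξ : IsPrimitiveRoot ξ ℓ) (y : D) :
    ∏ i ∈ Finset.range ℓ, (1 - ξ ^ i * y) = 1 - y ^ ℓ := by
  classical
  have h1 := hξ.pow_sub_pow_eq_prod_sub_mul (1 : D) y hℓ
  rw [one_pow] at h1
  rw [h1]
  have himg : Polynomial.nthRootsFinset ℓ (1 : D) = (Finset.range ℓ).image (ξ ^ ·) := by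
    ext μ
    have : NeZero ℓ := ⟨hℓ.ne'⟩
    rw [Polynomial.mem_nthRootsFinset hℓ, Finset.mem_image]
    constructor
    · intro hμ
      obtain ⟨i, hi, rfl⟩ := hξ.eq_pow_of_pow_eq_one hμ
      exact ⟨i, Finset.mem_range.mpr hi, rfl⟩
    · rintro ⟨i, -, rfl⟩
      rw [← pow_mul, mul_comm, pow_mul, hξ.pow_eq_one, one_pow]
  rw [himg, Finset.prod_image]
  intro a ha b hb hab
  exact hξ.pow_inj (Finset.mem_range.mp ha) (Finset.mem_range.mp hb) hab

end Roots

/-! ### the norm of `1 - X^m` -/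

section Norm

variable {R : Type*} [CommRing R]

/-- the norm `φ(X) ↦ ∏_{i < ℓ} φ(ζ^i X)` -/
def normHom (ζ : R) (ℓ : ℕ) : R⟦X⟧ →* R⟦X⟧ :=
  ∏ i ∈ Finset.range ℓ, ((rescale (ζ ^ i) : R⟦X⟧ →+* R⟦X⟧) : R⟦X⟧ →* R⟦X⟧)

theorem normHom_apply (ζ : R) (ℓ : ℕ) (φ : R⟦X⟧) :
    normHom ζ ℓ φ = ∏ i ∈ Finset.range ℓ, rescale (ζ ^ i) φ := by
  rw [normHom, MonoidHom.finsetProd_apply]
  rfl

theorem rescale_one_sub_X_pow (a : R) (m : ℕ) :
    rescale a ((1 : R⟦X⟧) - X ^ m) = 1 - C (a ^ m) * X ^ m := by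
  rw [map_sub, map_one, map_pow, rescale_X, mul_pow, ← map_pow]

/-- `N (1 - X^m) = (1 - X^m)^ℓ` if `ℓ ∣ m` -/
theorem normHom_one_sub_X_pow_of_dvd {ζ : R} {ℓ : ℕ} (hζ : ζ ^ ℓ = 1) {m : ℕ} (hm : ℓ ∣ m) :
    normHom ζ ℓ ((1 : R⟦X⟧) - X ^ m) = (1 - X ^ m) ^ ℓ := by
  rw [normHom_apply]
  have h : ∀ i ∈ Finset.range ℓ, rescale (ζ ^ i) ((1 : R⟦X⟧) - X ^ m) = 1 - X ^ m := by
    intro i _
    obtain ⟨c, rfl⟩ := hm
    rw [rescale_one_sub_X_pow, ← pow_mul, mul_comm i, mul_assoc, pow_mul, hζ, one_pow, map_one,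
      one_mul]
  rw [Finset.prod_congr rfl h, Finset.prod_const, Finset.card_range]

/-- `N (1 - X^m) = 1 - X^(m ℓ)` if `ℓ ∤ m`, `ℓ` prime, `ζ` a primitive `ℓ`-th root of unity -/
theorem normHom_one_sub_X_pow_of_not_dvd [IsDomain R] {ζ : R} {ℓ : ℕ} (hℓ : ℓ.Prime)
    (hζ : IsPrimitiveRoot ζ ℓ) {m : ℕ} (hm : ¬ ℓ ∣ m) :
    normHom ζ ℓ ((1 : R⟦X⟧) - X ^ m) = 1 - X ^ (m * ℓ) := by
  rw [normHom_apply]
  have hcop : Nat.Coprime m ℓ := ((Nat.Prime.coprime_iff_not_dvd hℓ).mpr hm).symm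
  have hξ : IsPrimitiveRoot (C (ζ ^ m) : R⟦X⟧) ℓ :=
    (hζ.pow_of_coprime m hcop).map_of_injective
      (f := (C : R →+* R⟦X⟧)) PowerSeries.C_injective
  have h : ∀ i ∈ Finset.range ℓ, rescale (ζ ^ i) ((1 : R⟦X⟧) - X ^ m) =
      1 - (C (ζ ^ m) : R⟦X⟧) ^ i * X ^ m := by
    intro i _
    rw [rescale_one_sub_X_pow, ← map_pow, ← pow_mul, ← pow_mul, mul_comm i m]
  rw [Finset.prod_congr rfl h, prod_one_sub_pow_mul hℓ.pos hξ, ← pow_mul]

end Norm

/-! ### the Euler product -/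

section Main

open scoped PowerSeries.WithPiTopology

variable (R : Type*) [CommRing R]

/-- the Euler product `∏_{n ≥ 1} (1 - X^n)` over `R` -/
def eulerE : R⟦X⟧ := ModularCurve.etaProd.map (Int.castRingHom R)

variable {R}

section Discrete

variable [TopologicalSpace R] [DiscreteTopology R]

theorem eulerE_eq_tprod : eulerE R = ∏' n : ℕ, ((1 : R⟦X⟧) - X ^ (n + 1)) := by
  rw [eulerE, ModularCurve.etaProd,
    (PowerSeries.WithPiTopology.multipliable_one_sub_X_pow ℤ).map_tprod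
      (PowerSeries.map (Int.castRingHom R)) (continuous_map _)]
  refine tprod_congr fun n => ?_
  rw [map_sub, map_one, map_pow, PowerSeries.map_X]

omit [DiscreteTopology R] in
/-- a family `1 - r n` with `n < order (r n)` is multipliable -/
theorem multipliable_one_sub (r : ℕ → R⟦X⟧) (hr : ∀ n : ℕ, ((n : ℕ) : ℕ∞) < (r n).order) :
    Multipliable fun n => (1 : R⟦X⟧) - r n := by
  simp_rw [sub_eq_add_neg]
  apply PowerSeries.WithPiTopology.multipliable_one_add_of_tendsto_order_atTop_nhds_top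
  refine ENat.tendsto_nhds_top_iff_natCast_lt.mpr fun N => Filter.eventually_atTop.mpr ⟨N, ?_⟩
  intro m hm
  rw [order_neg]
  exact lt_of_le_of_lt (Nat.cast_le.mpr hm) (hr m)

omit [TopologicalSpace R] [DiscreteTopology R] in
theorem lt_order_X_pow [Nontrivial R] {n e : ℕ} (h : n < e) :
    (n : ℕ∞) < (X ^ e : R⟦X⟧).order := by
  rw [order_X_pow]
  exact_mod_cast h

end Discrete

end Main

/-! ### the main identity -/

section MainThm

open scoped PowerSeries.WithPiTopology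

variable {R : Type*} [CommRing R] [IsDomain R]

/-- **`(∏_{i<ℓ} E(ζ^i X)) · E(X^(ℓ²)) = E(X^ℓ)^(ℓ+1)`** for the Euler product `E`, `ℓ` prime, `ζ` a
primitive `ℓ`-th root of unity of the domain `R`. -/
theorem normHom_eulerE {ζ : R} {ℓ : ℕ} (hℓ : ℓ.Prime) (hζ : IsPrimitiveRoot ζ ℓ) :
    normHom ζ ℓ (eulerE R) * expand (ℓ * ℓ) (Nat.mul_ne_zero hℓ.ne_zero hℓ.ne_zero) (eulerE R) =
      expand ℓ hℓ.ne_zero (eulerE R) ^ (ℓ + 1) := by
  classical
  let _ : TopologicalSpace R := ⊥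
  have : DiscreteTopology R := ⟨rfl⟩
  have hℓ0 : ℓ ≠ 0 := hℓ.ne_zero
  have hℓpos : 0 < ℓ := hℓ.pos
  have hℓℓ0 : ℓ * ℓ ≠ 0 := Nat.mul_ne_zero hℓ0 hℓ0
  -- the families
  set f : ℕ → R⟦X⟧ := fun n => 1 - X ^ (n + 1) with hf
  set h : ℕ → R⟦X⟧ := fun n => 1 - X ^ ((n + 1) * ℓ) with hh
  set k : ℕ → R⟦X⟧ := fun n => 1 - X ^ ((n + 1) * (ℓ * ℓ)) with hk
  set w : ℕ → R⟦X⟧ := fun n => 1 - (if ℓ ∣ n + 1 then 0 else X ^ ((n + 1) * ℓ)) with hw
  set u' : ℕ → R⟦X⟧ := fun n => 1 - (if ℓ ∣ n + 1 then X ^ ((n + 1) * ℓ) else 0) with hu'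
  set u : ℕ → R⟦X⟧ := fun n => if ℓ ∣ n + 1 then (1 - X ^ (n + 1)) ^ ℓ else 1 with hu
  set ι : ℕ → ℕ := fun m => ℓ * (m + 1) - 1 with hι
  have hι1 : ∀ m, ι m + 1 = ℓ * (m + 1) := by
    intro m
    have h0 : 0 < ℓ * (m + 1) := Nat.mul_pos hℓpos (by omega)
    show ℓ * (m + 1) - 1 + 1 = ℓ * (m + 1)
    omega
  have hιinj : Function.Injective ι := by
    intro a b hab
    have h1 : ι a + 1 = ι b + 1 := by rw [hab]
    rw [hι1, hι1] at h1
    have := Nat.eq_of_mul_eq_mul_left hℓpos h1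
    omega
  have hrange : ∀ n, ℓ ∣ n + 1 → n ∈ Set.range ι := by
    rintro n ⟨c, hc⟩
    have hc0 : c ≠ 0 := by
      rintro rfl
      omega
    refine ⟨c - 1, ?_⟩
    have h1 : ι (c - 1) + 1 = n + 1 := by
      rw [hι1, hc]
      congr 1
      omega
    omega
  -- multipliability
  have key : ∀ n e : ℕ, 0 < e → n < (n + 1) * e := fun n e he =>
    lt_of_lt_of_le (Nat.lt_succ_self n) (Nat.le_mul_of_pos_right _ he)
  have mf : Multipliable f := PowerSeries.WithPiTopology.multipliable_one_sub_X_pow R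
  have mh : Multipliable h := multipliable_one_sub _ fun n => lt_order_X_pow (key _ _ (by positivity))
  have mk : Multipliable k := multipliable_one_sub _ fun n => lt_order_X_pow (key _ _ (by positivity))
  have mw : Multipliable w := multipliable_one_sub _ fun n => by
    split_ifs
    · rw [order_zero]; exact ENat.natCast_lt_top n
    · exact lt_order_X_pow (key _ _ (by positivity))
  have mu' : Multipliable u' := multipliable_one_sub _ fun n => by
    split_ifs
    · exact lt_order_X_pow (key _ _ (by positivity))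
    · rw [order_zero]; exact ENat.natCast_lt_top n
  have mhl : Multipliable fun m => h m ^ ℓ := mh.pow ℓ
  -- values along `ι`
  have huι : ∀ m, u (ι m) = h m ^ ℓ := by
    intro m
    have hd : ℓ ∣ ι m + 1 := ⟨m + 1, hι1 m⟩
    show (if ℓ ∣ ι m + 1 then ((1 : R⟦X⟧) - X ^ (ι m + 1)) ^ ℓ else 1) =
      (1 - X ^ ((m + 1) * ℓ)) ^ ℓ
    rw [if_pos hd, hι1 m, mul_comm ℓ (m + 1)]
  have hu'ι : ∀ m, u' (ι m) = k m := by
    intro m
    have hd : ℓ ∣ ι m + 1 := ⟨m + 1, hι1 m⟩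
    show (1 - if ℓ ∣ ι m + 1 then X ^ ((ι m + 1) * ℓ) else 0 : R⟦X⟧) =
      1 - X ^ ((m + 1) * (ℓ * ℓ))
    rw [if_pos hd, hι1 m]
    congr 2
    ring
  have hu1 : ∀ n ∉ Set.range ι, u n = 1 := by
    intro n hn
    simp only [hu]
    rw [if_neg fun hd => hn (hrange n hd)]
  have hu'1 : ∀ n ∉ Set.range ι, u' n = 1 := by
    intro n hn
    simp only [hu']
    rw [if_neg fun hd => hn (hrange n hd), sub_zero]
  have mu : Multipliable u := by
    rw [← hιinj.multipliable_iff hu1]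
    exact mhl.congr fun m => (huι m).symm
  -- the four infinite products
  have pu : ∏' n, u n = (∏' m, h m) ^ ℓ := by
    rw [← hιinj.tprod_eq (f := u) (fun n hn => by
      by_contra hnot
      exact hn (hu1 n hnot)), ← mh.tprod_pow ℓ]
    exact tprod_congr huι
  have pu' : ∏' n, u' n = ∏' m, k m := by
    rw [← hιinj.tprod_eq (f := u') (fun n hn => by
      by_contra hnot
      exact hn (hu'1 n hnot))]
    exact tprod_congr hu'ι
  -- pointwise factorisations
  have hNf : ∀ n, normHom ζ ℓ (f n) = u n * w n := by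
    intro n
    by_cases hd : ℓ ∣ n + 1
    · simp only [hf, hu, hw, if_pos hd, sub_zero, mul_one]
      exact normHom_one_sub_X_pow_of_dvd hζ.pow_eq_one hd
    · simp only [hf, hu, hw, if_neg hd, one_mul]
      exact normHom_one_sub_X_pow_of_not_dvd hℓ hζ hd
  have hhf : ∀ n, h n = u' n * w n := by
    intro n
    by_cases hd : ℓ ∣ n + 1
    · simp only [hh, hu', hw, if_pos hd, sub_zero, mul_one]
    · simp only [hh, hu', hw, if_neg hd, sub_zero, one_mul]
  -- the three series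
  have hE := eulerE_eq_tprod (R := R)
  have hcontN : Continuous (normHom ζ ℓ : R⟦X⟧ → R⟦X⟧) := by
    have : (normHom ζ ℓ : R⟦X⟧ → R⟦X⟧) = fun φ => ∏ i ∈ Finset.range ℓ, rescale (ζ ^ i) φ := by
      funext φ
      exact normHom_apply ζ ℓ φ
    rw [this]
    exact continuous_finsetProd _ fun i _ => continuous_rescale (ζ ^ i)
  have e1 : normHom ζ ℓ (eulerE R) = (∏' m, h m) ^ ℓ * ∏' n, w n := by
    rw [hE, mf.map_tprod (normHom ζ ℓ) hcontN, tprod_congr hNf, mu.tprod_mul mw, pu]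
  have e2 : expand ℓ hℓ0 (eulerE R) = ∏' m, h m := by
    rw [hE, mf.map_tprod (expand ℓ hℓ0) (continuous_expand ℓ hℓ0)]
    refine tprod_congr fun n => ?_
    simp only [hf, hh]
    rw [map_sub, map_one, map_pow, expand_X, ← pow_mul, mul_comm ℓ]
  have e3 : expand (ℓ * ℓ) hℓℓ0 (eulerE R) = ∏' m, k m := by
    rw [hE, mf.map_tprod (expand (ℓ * ℓ) hℓℓ0) (continuous_expand (ℓ * ℓ) hℓℓ0)]
    refine tprod_congr fun n => ?_
    simp only [hf, hk]
    rw [map_sub, map_one, map_pow, expand_X, ← pow_mul, mul_comm (ℓ * ℓ)]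
  have e4 : ∏' m, h m = (∏' m, k m) * ∏' n, w n := by
    rw [tprod_congr hhf, mu'.tprod_mul mw, pu']
  rw [e1, e2, e3, pow_succ, mul_assoc, mul_comm (∏' n, w n), ← e4]

end MainThm

end Fermat.Agent.S44lib.Q4.EtaProd
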