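/-
S44lib / Q4 / DeltaNorm  (helper2)  — Project LSq, block Q4.

**The norm identity for `Δ`** in Laurent series over a domain `R` with a primitive `ℓ`-th root of
unity `ζ` (`ℓ` prime):

  `Δ(q^(ℓ²)) · ∏_{i<ℓ} Δ(ζ^i q) = ε · Δ(q^ℓ)^(ℓ+1)`,   `ε = ∏_{i<ℓ} ζ^i`  (`ε² = 1`),

the same for `Δ⁻¹` (`DeltaInvQ`), and for `X0 = Δ(q)/Δ(q^p) = Δ^(1-p)` in characteristic `p` odd:

  `X0(q^(ℓ²)) · ∏_{i<ℓ} X0(ζ^i q) = X0(q^ℓ)^(ℓ+1)`.

Formal content of `N_α (β Δ) = ± Δ^(ℓ+1)`; proof from `EtaProd.normHom_eulerE`.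
-/
import Fermat.Agent.S44lib.Q4.EtaProd
import Fermat.Agent.LSb.Unit.ModRed

set_option autoImplicit false

noncomputable section

namespace Fermat.Agent.S44lib.Q4

open ModularCurve HahnSeries Fermat.Agent.S28lib Fermat.Agent.S28lib.BrickB Fermat.Agent.LSb.Unit

section Lift

variable {R : Type*} [CommRing R]

/-- the twist of a power series is the rescaling -/
theorem twist_ofPowerSeries (ζ : Rˣ) (φ : PowerSeries R) :
    twist ζ (HahnSeries.ofPowerSeries ℤ R φ) =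
      HahnSeries.ofPowerSeries ℤ R (PowerSeries.rescale (ζ : R) φ) := by
  ext n
  rw [twist_coeff, coeff_ofPowerSeries_eq, coeff_ofPowerSeries_eq]
  split_ifs with hn
  · obtain ⟨m, rfl⟩ := Int.eq_ofNat_of_zero_le hn
    rw [Int.toNat_natCast, PowerSeries.coeff_rescale, zpow_natCast, Units.val_pow_eq_pow_val]
  · rw [mul_zero]

/-- `q ↦ q^d` on a power series is `PowerSeries.expand` -/
theorem qExpand_ofPowerSeries (d : ℕ) [NeZero d] (φ : PowerSeries R) :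
    qExpand R d (HahnSeries.ofPowerSeries ℤ R φ) =
      HahnSeries.ofPowerSeries ℤ R (PowerSeries.expand d (NeZero.ne d) φ) := by
  have hd0 : (d : ℤ) ≠ 0 := by exact_mod_cast NeZero.ne d
  have hdpos : (0 : ℤ) < d := by exact_mod_cast Nat.pos_of_ne_zero (NeZero.ne d)
  ext n
  rw [coeff_qExpand_eq]
  conv_rhs => rw [coeff_ofPowerSeries_eq]
  by_cases hn : 0 ≤ n
  · obtain ⟨m, rfl⟩ := Int.eq_ofNat_of_zero_le hn
    rw [if_pos hn, Int.toNat_natCast, PowerSeries.coeff_expand]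
    by_cases hdvd : d ∣ m
    · obtain ⟨c, rfl⟩ := hdvd
      have h1 : ((d * c : ℕ) : ℤ) / (d : ℤ) = (c : ℤ) := by
        push_cast
        exact Int.mul_ediv_cancel_left _ hd0
      rw [if_pos ⟨(c : ℤ), by push_cast; ring⟩, if_pos (Dvd.intro c rfl),
        Nat.mul_div_cancel_left _ (Nat.pos_of_ne_zero (NeZero.ne d)), coeff_ofPowerSeries_eq,
        h1, if_pos (Int.natCast_nonneg c), Int.toNat_natCast]
    · rw [if_neg hdvd, if_neg]
      intro h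
      exact hdvd (Int.natCast_dvd_natCast.mp h)
  · rw [if_neg hn]
    split_ifs with hdvd
    · obtain ⟨c, rfl⟩ := hdvd
      rw [Int.mul_ediv_cancel_left _ hd0, coeff_ofPowerSeries_eq, if_neg]
      intro hc
      exact hn (mul_nonneg hdpos.le hc)
    · rfl

end Lift

/-! ### the identity for `Δ` as a power series -/

section PS

open PowerSeries

variable (R : Type*) [CommRing R]

/-- `Δ = X ∏ (1 - X^n)^24` as a power series over `R` -/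
def deltaPSR : R⟦X⟧ := X * EtaProd.eulerE R ^ 24

theorem ofPowerSeries_deltaPSR : HahnSeries.ofPowerSeries ℤ R (deltaPSR R) = DeltaQ R := by
  rw [deltaPSR, DeltaQ, map_mul, HahnSeries.ofPowerSeries_X, map_pow, EtaProd.eulerE,
    dedekindEtaUnit, map_pow, map_pow]

variable {R}

/-- `ε = ∏_{i<ℓ} ζ^i` -/
def epsUnit (ζ : R) (ℓ : ℕ) : R := ∏ i ∈ Finset.range ℓ, ζ ^ i

theorem epsUnit_sq {ζ : R} {ℓ : ℕ} (hζ : ζ ^ ℓ = 1) : epsUnit ζ ℓ ^ 2 = 1 := by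
  rw [epsUnit, Finset.prod_pow_eq_pow_sum, ← pow_mul, Finset.sum_range_id_mul_two,
    pow_mul, hζ, one_pow]

theorem deltaPSR_norm [IsDomain R] {ζ : R} {ℓ : ℕ} (hℓ : ℓ.Prime) (hζ : IsPrimitiveRoot ζ ℓ) :
    expand (ℓ * ℓ) (Nat.mul_ne_zero hℓ.ne_zero hℓ.ne_zero) (deltaPSR R) *
        ∏ i ∈ Finset.range ℓ, rescale (ζ ^ i) (deltaPSR R) =
      PowerSeries.C (epsUnit ζ ℓ) * expand ℓ hℓ.ne_zero (deltaPSR R) ^ (ℓ + 1) := by
  have key := EtaProd.normHom_eulerE hℓ hζ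
  rw [EtaProd.normHom_apply] at key
  have h1 : ∏ i ∈ Finset.range ℓ, rescale (ζ ^ i) (deltaPSR R) =
      PowerSeries.C (epsUnit ζ ℓ) * X ^ ℓ * (∏ i ∈ Finset.range ℓ, rescale (ζ ^ i) (EtaProd.eulerE R)) ^ 24 := by
    simp only [deltaPSR, map_mul, map_pow, rescale_X]
    rw [Finset.prod_mul_distrib, Finset.prod_mul_distrib, Finset.prod_pow, Finset.prod_const,
      Finset.card_range, epsUnit, map_prod]
    simp only [map_pow]
  rw [h1, deltaPSR, map_mul, map_mul, map_pow, map_pow, expand_X, expand_X]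
  calc X ^ (ℓ * ℓ) * (expand (ℓ * ℓ) _ (EtaProd.eulerE R)) ^ 24 *
        (PowerSeries.C (epsUnit ζ ℓ) * X ^ ℓ *
          (∏ i ∈ Finset.range ℓ, rescale (ζ ^ i) (EtaProd.eulerE R)) ^ 24)
      = PowerSeries.C (epsUnit ζ ℓ) * X ^ (ℓ * ℓ + ℓ) *
          ((∏ i ∈ Finset.range ℓ, rescale (ζ ^ i) (EtaProd.eulerE R)) *
            expand (ℓ * ℓ) _ (EtaProd.eulerE R)) ^ 24 := by
        rw [_root_.pow_add]; ring
    _ = PowerSeries.C (epsUnit ζ ℓ) * (X ^ ℓ * (expand ℓ hℓ.ne_zero (EtaProd.eulerE R)) ^ 24) ^ (ℓ + 1) := by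
        rw [key, mul_pow, ← pow_mul, ← pow_mul, ← pow_mul]
        have e1 : ℓ * ℓ + ℓ = ℓ * (ℓ + 1) := by ring
        have e2 : (ℓ + 1) * 24 = 24 * (ℓ + 1) := by ring
        rw [e1, e2]
        ring

end PS

/-! ### the identity for `Δ`, `Δ⁻¹` and `Δ(q)/Δ(q^p)` as Laurent series -/

section LS

variable {R : Type*} [CommRing R] [IsDomain R]

/-- the norm-type expression `f(q^(ℓ²)) · ∏_{i<ℓ} f(ζ^i q)`, multiplicative in `f` -/
def normExpr (ζ : Rˣ) (ℓ : ℕ) [NeZero ℓ] : LaurentSeries R →* LaurentSeries R :=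
  ((qExpand R (ℓ * ℓ) : LaurentSeries R →+* LaurentSeries R) : LaurentSeries R →* LaurentSeries R) *
    ∏ i ∈ Finset.range ℓ,
      ((twist (ζ ^ i) : LaurentSeries R →+* LaurentSeries R) : LaurentSeries R →* LaurentSeries R)

theorem normExpr_apply (ζ : Rˣ) (ℓ : ℕ) [NeZero ℓ] (f : LaurentSeries R) :
    normExpr ζ ℓ f = qExpand R (ℓ * ℓ) f * ∏ i ∈ Finset.range ℓ, twist (ζ ^ i) f := by
  rw [normExpr, MonoidHom.mul_apply, MonoidHom.finsetProd_apply]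
  rfl

variable {ζ : Rˣ} {ℓ : ℕ} [NeZero ℓ]

/-- **`Δ(q^(ℓ²)) ∏_{i<ℓ} Δ(ζ^i q) = ε Δ(q^ℓ)^(ℓ+1)`** -/
theorem normExpr_DeltaQ (hℓ : ℓ.Prime) (hζ : IsPrimitiveRoot ζ ℓ) :
    normExpr ζ ℓ (DeltaQ R) =
      HahnSeries.C (epsUnit (ζ : R) ℓ) * qExpand R ℓ (DeltaQ R) ^ (ℓ + 1) := by
  have hζ' : IsPrimitiveRoot (ζ : R) ℓ := IsPrimitiveRoot.coe_units_iff.mpr hζ
  have key := congrArg (HahnSeries.ofPowerSeries ℤ R) (deltaPSR_norm hℓ hζ')
  rw [map_mul, map_mul, map_pow, map_prod, HahnSeries.ofPowerSeries_C] at key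
  rw [normExpr_apply, ← ofPowerSeries_deltaPSR, qExpand_ofPowerSeries, qExpand_ofPowerSeries]
  have h1 : ∀ i ∈ Finset.range ℓ, twist (ζ ^ i) (HahnSeries.ofPowerSeries ℤ R (deltaPSR R)) =
      HahnSeries.ofPowerSeries ℤ R (PowerSeries.rescale ((ζ : R) ^ i) (deltaPSR R)) := by
    intro i _
    rw [twist_ofPowerSeries, Units.val_pow_eq_pow_val]
  rw [Finset.prod_congr rfl h1]
  exact key

theorem epsUnit_ne_zero {a : R} {n : ℕ} (ha : a ^ n = 1) : epsUnit a n ≠ 0 := by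
  have h := epsUnit_sq ha
  intro h0
  rw [h0, zero_pow (by norm_num)] at h
  exact zero_ne_one h

/-- the same for `Δ⁻¹` -/
theorem normExpr_DeltaInvQ (hℓ : ℓ.Prime) (hζ : IsPrimitiveRoot ζ ℓ) :
    normExpr ζ ℓ (DeltaInvQ R) =
      HahnSeries.C (epsUnit (ζ : R) ℓ) * qExpand R ℓ (DeltaInvQ R) ^ (ℓ + 1) := by
  have hζ' : IsPrimitiveRoot (ζ : R) ℓ := IsPrimitiveRoot.coe_units_iff.mpr hζ
  have h1 : normExpr ζ ℓ (DeltaQ R) * normExpr ζ ℓ (DeltaInvQ R) = 1 := by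
    rw [← map_mul, DeltaQ_mul_DeltaInvQ, map_one]
  have h2 : qExpand R ℓ (DeltaQ R) * qExpand R ℓ (DeltaInvQ R) = 1 := by
    rw [← map_mul, DeltaQ_mul_DeltaInvQ, map_one]
  have h3 : (HahnSeries.C (epsUnit (ζ : R) ℓ) : LaurentSeries R) *
      HahnSeries.C (epsUnit (ζ : R) ℓ) = 1 := by
    rw [← map_mul, ← sq, epsUnit_sq hζ'.pow_eq_one, map_one]
  rw [normExpr_DeltaQ hℓ hζ] at h1
  have h4 : (HahnSeries.C (epsUnit (ζ : R) ℓ) * qExpand R ℓ (DeltaQ R) ^ (ℓ + 1)) *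
      (HahnSeries.C (epsUnit (ζ : R) ℓ) * qExpand R ℓ (DeltaInvQ R) ^ (ℓ + 1)) = 1 := by
    calc _ = (HahnSeries.C (epsUnit (ζ : R) ℓ) * HahnSeries.C (epsUnit (ζ : R) ℓ)) *
          (qExpand R ℓ (DeltaQ R) * qExpand R ℓ (DeltaInvQ R)) ^ (ℓ + 1) := by
          rw [mul_pow]; ring
      _ = 1 := by rw [h3, h2, one_pow, one_mul]
  -- two right inverses of the same element
  calc normExpr ζ ℓ (DeltaInvQ R)
      = ((HahnSeries.C (epsUnit (ζ : R) ℓ) * qExpand R ℓ (DeltaInvQ R) ^ (ℓ + 1)) *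
          (HahnSeries.C (epsUnit (ζ : R) ℓ) * qExpand R ℓ (DeltaQ R) ^ (ℓ + 1))) *
          normExpr ζ ℓ (DeltaInvQ R) := by
        rw [mul_comm (HahnSeries.C (epsUnit (ζ : R) ℓ) * qExpand R ℓ (DeltaInvQ R) ^ (ℓ + 1)), h4,
          one_mul]
    _ = HahnSeries.C (epsUnit (ζ : R) ℓ) * qExpand R ℓ (DeltaInvQ R) ^ (ℓ + 1) := by
        rw [mul_assoc, h1, mul_one]

/-- `normExpr` commutes with `q ↦ q^p`, up to replacing `ζ` by `ζ^p` -/
theorem normExpr_qExpand (p : ℕ) [NeZero p] (f : LaurentSeries R) :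
    normExpr ζ ℓ (qExpand R p f) = qExpand R p (normExpr (ζ ^ p) ℓ f) := by
  rw [normExpr_apply, normExpr_apply, map_mul, map_prod, qExpand_qExpand, qExpand_qExpand,
    qExpand_congr (mul_comm (ℓ * ℓ) p) f]
  congr 1
  refine Finset.prod_congr rfl fun i _ => ?_
  rw [twist_qExpand, ← pow_mul, ← pow_mul, mul_comm i p]

omit [IsDomain R] in
theorem epsUnit_pow (a : R) (n p : ℕ) : epsUnit (a ^ p) n = epsUnit a n ^ p := by
  rw [epsUnit, epsUnit, ← Finset.prod_pow]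
  refine Finset.prod_congr rfl fun i _ => ?_
  rw [← pow_mul, ← pow_mul, mul_comm]

/-- **`X0(q^(ℓ²)) ∏_{i<ℓ} X0(ζ^i q) = X0(q^ℓ)^(ℓ+1)`** for `X0 = Δ(q)/Δ(q^p)`, `p` odd prime to `ℓ` -/
theorem normExpr_X0 (hℓ : ℓ.Prime) (hζ : IsPrimitiveRoot ζ ℓ) (p : ℕ) [NeZero p] (hp : Odd p)
    (hpℓ : Nat.Coprime p ℓ) :
    normExpr ζ ℓ (X0 R p) = qExpand R ℓ (X0 R p) ^ (ℓ + 1) := by
  have hζ' : IsPrimitiveRoot (ζ : R) ℓ := IsPrimitiveRoot.coe_units_iff.mpr hζ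
  have hζp : IsPrimitiveRoot (ζ ^ p) ℓ := hζ.pow_of_coprime p hpℓ
  have hA := normExpr_DeltaQ hℓ hζ
  have hB : normExpr ζ ℓ (qExpand R p (DeltaInvQ R)) =
      HahnSeries.C (epsUnit (ζ : R) ℓ ^ p) * qExpand R ℓ (qExpand R p (DeltaInvQ R)) ^ (ℓ + 1) := by
    rw [normExpr_qExpand, normExpr_DeltaInvQ hℓ hζp, map_mul, map_pow, qExpand_C,
      Units.val_pow_eq_pow_val, epsUnit_pow, qExpand_qExpand, qExpand_qExpand,
      qExpand_congr (mul_comm p ℓ) (DeltaInvQ R)]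
  have h1 : (HahnSeries.C (epsUnit (ζ : R) ℓ) : LaurentSeries R) *
      HahnSeries.C (epsUnit (ζ : R) ℓ ^ p) = 1 := by
    obtain ⟨m, hm⟩ := hp
    rw [← map_mul, ← pow_succ', hm, show 2 * m + 1 + 1 = 2 * (m + 1) by ring, pow_mul,
      epsUnit_sq hζ'.pow_eq_one, one_pow, map_one]
  rw [X0, map_mul, hA, hB, map_mul]
  calc HahnSeries.C (epsUnit (ζ : R) ℓ) * qExpand R ℓ (DeltaQ R) ^ (ℓ + 1) *
        (HahnSeries.C (epsUnit (ζ : R) ℓ ^ p) *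
          qExpand R ℓ (qExpand R p (DeltaInvQ R)) ^ (ℓ + 1))
      = (HahnSeries.C (epsUnit (ζ : R) ℓ) * HahnSeries.C (epsUnit (ζ : R) ℓ ^ p)) *
          (qExpand R ℓ (DeltaQ R) * qExpand R ℓ (qExpand R p (DeltaInvQ R))) ^ (ℓ + 1) := by
        rw [mul_pow]; ring
    _ = (qExpand R ℓ (DeltaQ R) * qExpand R ℓ (qExpand R p (DeltaInvQ R))) ^ (ℓ + 1) := by
        rw [h1, one_mul]

end LS

end Fermat.Agent.S44lib.Q4
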