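/-
S44lib / Q4 / NormH2  (helper2)  — Project LSq, block Q4.

**(E2), function level**: on the reduction `FRes A M` at a prime `q ∤ M ℓ` (`q` odd, `ℓ ∤ M` prime), the
supersingular function `H₂ = red₁ (Δ(t)/Δ(t^q)) = Δ̄^(1-q)` satisfies

  `N_ᾱ (β̄ H₂) = H₂ ^ (ℓ + 1)`,

hence `T̄_ℓ (div H₂) = (ℓ + 1) • div H₂` on `Div (FRes A M)`.

Proof: helper4's norm formula `ConjNorm.qExpand_norm_of_eq` (Tate embeddings) over the algebraically
closed residue field, and the formal identity `normExpr_X0` (`Q4/DeltaNorm`).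
-/
import Fermat.Agent.S44lib.Q4.HeckeK
import Fermat.Agent.S44lib.Q4.DeltaNorm
import Fermat.Agent.LSb.Unit.ModRed

set_option autoImplicit false
set_option linter.unusedSectionVars false
set_option linter.style.haveILetI false

noncomputable section

namespace Fermat.Agent.S44lib.Q4

open AlgebraicCurve ModularCurve IntermediateField Fermat.Agent.S18lib Fermat.Agent.S37lib
open Fermat.Agent.S28lib Fermat.Agent.LSb Fermat.Agent.LSb.Unit

local notation "Qb" => AlgebraicClosure ℚ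

variable {A : ValuationSubring (AlgebraicClosure ℚ)} {M ℓ q : ℕ} [NeZero M] [NeZero ℓ] [NeZero q]
variable [hq : Fact q.Prime]

local notation "kA" => IsLocalRing.ResidueField A

/-- **the norm formula along `ᾱ`** in `t`-expansions: for `f ∈ FRes A M`,
`N_ᾱ (β̄ f) (t^((Mℓ)²)) = (f(t^(ℓ²)) ∏_{i<ℓ} f(ζ^i t)) (t^(M²ℓ))`. -/
theorem qExpand_normAlong_betaK (hA : A.LiesOverPrime q) (hqMℓ : ¬ q ∣ M * ℓ) (hℓ : ℓ.Prime)
    (hℓM : ¬ ℓ ∣ M) {ζ : kAˣ} (hζ : IsPrimitiveRoot ζ ℓ) (f : FRes A M) :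
    qExpand kA (M * ℓ * (M * ℓ))
        ((ES.normAlong (alphaK A M ℓ) (betaK A M ℓ f) : FRes A M) : LaurentSeries kA) =
      qExpand kA (M * M * ℓ) (normExpr ζ ℓ (f : LaurentSeries kA)) := by
  letI := algebraAlong (alphaK A M ℓ)
  letI : Module (FRes A M) (FRes A (M * ℓ)) := (algebraAlong (alphaK A M ℓ)).toModule
  haveI : FiniteDimensional (FRes A M) (FRes A (M * ℓ)) := finiteAlong_alphaK A M ℓ
  haveI : Algebra.IsSeparable (FRes A M) (FRes A (M * ℓ)) := isSeparable_alphaK A M ℓ hA hqMℓ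
  have hΦ : ∀ (p : ℕ) [NeZero p], p.Prime → p ∣ M * ℓ → ModPolyData kA p := fun p _ hp hpd =>
    haveI : Fact p.Prime := ⟨hp⟩
    Gink.modPolyData_kRes A hA p (fun h => hqMℓ (h.trans hpd))
  have key := ConjNorm.qExpand_norm_of_eq (k := kA) (N := M) (ℓ := ℓ) hΦ
    (F₁ := modularFunctionFieldFullC kA M) (F₂ := modularFunctionFieldFullC kA (M * ℓ)) rfl rfl
    (coe_alphaK A M ℓ) (finrank_alphaK A M ℓ hA hqMℓ hℓ hℓM) hℓ hℓM hζ f (betaK A M ℓ f)
    (coe_betaK A M ℓ f)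
  rw [ES.normAlong_def]
  rw [key, normExpr_apply, map_mul, map_prod, qExpand_qExpand]
  congr 1
  exact qExpand_congr (by ring) _

variable [HasPrincipalDivisors (IsLocalRing.ResidueField A) (FRes A (M * ℓ))]

/-- **(E2), function level**: `N_ᾱ (β̄ H₂) = H₂^(ℓ+1)`. -/
theorem normAlong_betaK_H₂ (hA : A.LiesOverPrime q) (hq2 : q ≠ 2) (hqℓ : q ≠ ℓ)
    (hqMℓ : ¬ q ∣ M * ℓ) (hℓ : ℓ.Prime) (hℓM : ¬ ℓ ∣ M)
    {D1 : GaussDatum A (FBar (M * q)) (FRes A M)} (h1 : Old.IsGaussOne D1) :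
    ES.normAlong (alphaK A M ℓ) (betaK A M ℓ (H₂ D1)) = H₂ D1 ^ (ℓ + 1) := by
  -- a primitive `ℓ`-th root of unity in the residue field
  haveI : NeZero ((ℓ : ℕ) : kA) := ⟨Gink.natCast_ne_zero_kRes hA (fun h => hqℓ
    ((Nat.prime_dvd_prime_iff_eq hq.out hℓ).mp h))⟩
  obtain ⟨ζ0, hζ0⟩ := HasEnoughRootsOfUnity.exists_primitiveRoot kA ℓ
  set ζ : kAˣ := (hζ0.isUnit (NeZero.ne ℓ)).unit with hζdef
  have hζ : IsPrimitiveRoot ζ ℓ := by
    rw [← IsPrimitiveRoot.coe_units_iff]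
    exact hζ0
  have hodd : Odd q := hq.out.odd_of_ne_two hq2
  have hcop : Nat.Coprime q ℓ := (Nat.coprime_primes hq.out hℓ).mpr hqℓ
  apply Subtype.ext
  apply qExpand_injective (R := kA) (M * ℓ * (M * ℓ))
  rw [qExpand_normAlong_betaK hA hqMℓ hℓ hℓM hζ, coe_H₂ h1, normExpr_X0 hℓ hζ q hodd hcop, map_pow,
    qExpand_qExpand, SubmonoidClass.coe_pow, map_pow, coe_H₂ h1]
  congr 1
  exact qExpand_congr (by ring) _

end Fermat.Agent.S44lib.Q4
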