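/-
S44lib / Q4 / RowSum  (helper2)  — Project LSq, block Q4.

**(E2): the Brandt matrix has the Eisenstein eigenvector.**  On the reduction `FRes A M` at a prime
`q ∤ M ℓ` (`q` odd, `ℓ ∤ M` prime), with the nodes `x₁ c = modX₁ hA D1 c` of the modular nodal datum
(`LSb/Unit/Instance`), `B = nodeMatrix x₁ T̄_ℓ`, `m_c = ord_{x₁ c} H₂`:

  `∑_{c'} B c c' · m_{c'} = (ℓ + 1) · m_c`.

Ingredients: `normAlong_betaK_H₂` (`T̄_ℓ (div H₂) = (ℓ+1) div H₂`), the abstract `(E2-core)`, and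
* `betaK_jK_mem_iff` : `β̄ j̄` and `ᾱ j̄` have the same poles (modular equation), so `T̄_ℓ` maps cusps
  to cusps;
* `exists_modX₁_eq` : the family `x₁` enumerates the whole node set (Frobenius permutes it);
* the poles of `H₂` are poles of `j̄` (`H₂` is a polynomial in `j̄`).
-/
import Fermat.Agent.S44lib.Q4.NormH2
import Fermat.Agent.S44lib.Q4.Abs
import Fermat.Agent.S36lib.Count.FrobNodes
import Fermat.Agent.S37lib.ConjNorm.KroneckerPlace
import Fermat.Agent.LSb.Unit.NodePos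
import Fermat.Agent.S18lib.Cech.CurveBasics

set_option autoImplicit false
set_option linter.unusedSectionVars false
set_option linter.style.haveILetI false

noncomputable section

namespace Fermat.Agent.S44lib.Q4

open AlgebraicCurve ModularCurve IntermediateField Fermat.Agent.S18lib Fermat.Agent.S37lib
open Fermat.Agent.S28lib Fermat.Agent.LSb Fermat.Agent.LSb.Unit Fermat.Agent.ProgramR Polynomial

/-! ### abstract: a correspondence whose two legs have the same poles maps poles to poles -/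

section AbsPoles

variable {K F F' : Type*} [Field K] [Field F] [Field F'] [Algebra K F] [Algebra K F']
variable [HasPrincipalDivisors K F] [HasPrincipalDivisors K F']

/-- if every place of `F'` where `ψ j` is regular is a place where `φ j` is regular, then
`T = ψ_* φ^*` of a pole of `j` avoids the places where `j` is regular -/
theorem correspondence_single_apply_eq_zero (φ ψ : F →ₐ[K] F') (hφ : φ.toRingHom.IsIntegral)
    (hψ : ψ.toRingHom.IsIntegral) (j : F)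
    (hj : ∀ W : Place K F', ψ j ∈ W.toValuationSubring → φ j ∈ W.toValuationSubring)
    {Q Q' : Place K F} (hQ : j ∉ Q.toValuationSubring) (hQ' : j ∈ Q'.toValuationSubring) :
    Divisor.correspondence φ ψ hφ hψ (Finsupp.single Q 1) Q' = 0 := by
  classical
  refine Finsupp.notMem_support_iff.mp fun hmem => ?_
  obtain ⟨W, hWQ, hWQ'⟩ := ES.exists_of_mem_support_correspondence_single φ ψ hφ hψ hmem
  subst hWQ hWQ'
  exact hQ (hj W hQ')

end AbsPoles

local notation "Qb" => AlgebraicClosure ℚ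
local notation "Zb" => integralClosure ℤ ℂ

variable {A : ValuationSubring (AlgebraicClosure ℚ)} {M ℓ q : ℕ} [NeZero M] [NeZero ℓ] [NeZero q]
variable [hq : Fact q.Prime]

local notation "kA" => IsLocalRing.ResidueField A

/-! ### cusps go to cusps -/

section Cusps

variable [hℓ : Fact ℓ.Prime]

variable (A M ℓ) in
/-- the coefficient homomorphism `ℤ̄ → k → FRes A (M ℓ)` -/
def iotaK : Zb →+* FRes A (M * ℓ) :=
  (algebraMap kA (FRes A (M * ℓ))).comp (Gink.iotaA A)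

theorem val_comp_iotaK :
    (algebraMap (FRes A (M * ℓ)) (LaurentSeries kA)).comp (iotaK A M ℓ) =
      (HahnSeries.C : kA →+* LaurentSeries kA).comp (Gink.iotaA A) := by
  apply RingHom.ext
  intro c
  show algebraMap kA (LaurentSeries kA) (Gink.iotaA A c) = _
  rw [Kummer.algebraMap_laurent_eq_C]
  rfl

theorem coe_betaK_jK :
    ((betaK A M ℓ (Gink.jK A M) : FRes A (M * ℓ)) : LaurentSeries kA) =
      qExpand kA ℓ (jqModC kA) := by
  rw [coe_betaK, Gink.coe_jK]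

theorem coe_alphaK_jK :
    ((alphaK A M ℓ (Gink.jK A M) : FRes A (M * ℓ)) : LaurentSeries kA) = jqModC kA := by
  rw [coe_alphaK, Gink.coe_jK]

/-- `Φ_ℓ(β̄ j̄, ᾱ j̄) = 0` in `FRes A (M ℓ)` -/
theorem biEval₂_betaK_alphaK (hℓk : ((ℓ : ℕ) : kA) ≠ 0) :
    ConjNorm.biEval₂ (iotaK A M ℓ) (phiZ ℓ) (betaK A M ℓ (Gink.jK A M))
      (alphaK A M ℓ (Gink.jK A M)) = 0 := by
  apply (algebraMap (FRes A (M * ℓ)) (LaurentSeries kA)).injective
  rw [ConjNorm.map_biEval₂, val_comp_iotaK, map_zero]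
  show ConjNorm.biEval₂ _ (phiZ ℓ)
    ((betaK A M ℓ (Gink.jK A M) : FRes A (M * ℓ)) : LaurentSeries kA)
    ((alphaK A M ℓ (Gink.jK A M) : FRes A (M * ℓ)) : LaurentSeries kA) = 0
  rw [coe_betaK_jK, coe_alphaK_jK]
  exact ConjNorm.biEval₂_qExpand_jqModC _ hℓk

/-- `Φ_ℓ(ᾱ j̄, β̄ j̄) = 0` in `FRes A (M ℓ)` -/
theorem biEval₂_alphaK_betaK (hℓk : ((ℓ : ℕ) : kA) ≠ 0) :
    ConjNorm.biEval₂ (iotaK A M ℓ) (phiZ ℓ) (alphaK A M ℓ (Gink.jK A M))
      (betaK A M ℓ (Gink.jK A M)) = 0 := by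
  apply (algebraMap (FRes A (M * ℓ)) (LaurentSeries kA)).injective
  rw [ConjNorm.map_biEval₂, val_comp_iotaK, map_zero]
  show ConjNorm.biEval₂ _ (phiZ ℓ)
    ((alphaK A M ℓ (Gink.jK A M) : FRes A (M * ℓ)) : LaurentSeries kA)
    ((betaK A M ℓ (Gink.jK A M) : FRes A (M * ℓ)) : LaurentSeries kA) = 0
  rw [coe_betaK_jK, coe_alphaK_jK]
  exact ConjNorm.biEval₂_jqModC_qExpand _ hℓk

/-- **`β̄ j̄` and `ᾱ j̄` have the same poles** -/
theorem betaK_jK_mem_iff (hℓk : ((ℓ : ℕ) : kA) ≠ 0) (v : Place kA (FRes A (M * ℓ))) :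
    betaK A M ℓ (Gink.jK A M) ∈ v.toValuationSubring ↔
      alphaK A M ℓ (Gink.jK A M) ∈ v.toValuationSubring :=
  ⟨ConjNorm.mem_of_biEval₂_eq_zero v (Gink.iotaA A) (phiZ_monic ℓ) (biEval₂_alphaK_betaK hℓk),
    ConjNorm.mem_of_biEval₂_eq_zero v (Gink.iotaA A) (phiZ_monic ℓ) (biEval₂_betaK_alphaK hℓk)⟩

end Cusps

/-! ### the nodes -/

section Nodes

variable [HasPrincipalDivisors (IsLocalRing.ResidueField A) (FRes A M)]

/-- the family `x₁` enumerates the whole node set: the Frobenius image permutes the nodes -/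
theorem exists_modX₁_eq (hA : A.LiesOverPrime q)
    {D1 : GaussDatum A (FBar (M * q)) (FRes A M)} (h1 : Old.IsGaussOne D1)
    {Q : Place kA (FRes A M)} (hQ : Q ∈ modNodes D1) : ∃ c, modX₁ hA D1 c = Q := by
  haveI : Finite (modNodes D1) := (modNodes_finite h1).to_subtype
  let g : Fin (modS D1) → modNodes D1 := fun c =>
    ⟨modX₁ hA D1 c, S36lib.Count.modX₁_mem hA h1 c⟩
  have hginj : Function.Injective g := by
    intro c d hcd
    exact modX₁_injective hA (congrArg Subtype.val hcd)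
  have hcard : Nat.card (modNodes D1) ≤ Nat.card (Fin (modS D1)) := by
    rw [Nat.card_fin]
    exact le_of_eq rfl
  obtain ⟨c, hc⟩ := (hginj.bijective_of_nat_card_le hcard).2 ⟨Q, hQ⟩
  exact ⟨c, congrArg Subtype.val hc⟩

/-- a point of the divisor of `H₂` which is not a node is a pole of `j̄` -/
theorem jK_not_mem_of_ord_H₂_ne_zero (hA : A.LiesOverPrime q)
    {D1 : GaussDatum A (FBar (M * q)) (FRes A M)} (h1 : Old.IsGaussOne D1)
    {Q : Place kA (FRes A M)} (hord : Q.ord (H₂ D1) ≠ 0) (hQ : ∀ c, Q ≠ modX₁ hA D1 c) :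
    Gink.jK A M ∉ Q.toValuationSubring := by
  intro hj
  -- `H₂` is a polynomial in `j̄`, hence regular at `Q`
  obtain ⟨P, hP, -⟩ := exists_poly_H₂ hA h1
  have hH : H₂ D1 ∈ Q.toValuationSubring := by
    rw [hP, Polynomial.aeval_eq_sum_range]
    refine Subring.sum_mem _ fun i _ => ?_
    rw [Algebra.smul_def]
    exact Subring.mul_mem _ (Q.algebraMap_mem' _) (Subring.pow_mem _ hj i)
  have h0 : 0 ≤ Q.ord (H₂ D1) := (FF.mem_iff_ord_nonneg Q _).mp hH
  have hpos : 0 < Q.ord (H₂ D1) := lt_of_le_of_ne h0 (Ne.symm hord)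
  have hnode : Q ∈ modNodes D1 := by
    rw [modNodes, mem_nodeSet]
    exact ⟨hj, (LSb.adicValuation_lt_one_iff (Q := Q)).2 (Or.inr hpos)⟩
  obtain ⟨c, hc⟩ := exists_modX₁_eq hA h1 hnode
  exact hQ c hc.symm

end Nodes

/-! ### the row sums -/

section RowSum

variable [hℓ : Fact ℓ.Prime]
variable [HasPrincipalDivisors (IsLocalRing.ResidueField A) (FRes A M)]
variable [HasPrincipalDivisors (IsLocalRing.ResidueField A) (FRes A (M * ℓ))]

/-- `T̄_ℓ (div H₂) = (ℓ + 1) • div H₂` -/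
theorem heckeDivK_divOf_H₂ (hA : A.LiesOverPrime q) (hq2 : q ≠ 2) (hqℓ : q ≠ ℓ)
    (hqMℓ : ¬ q ∣ M * ℓ) (hℓM : ¬ ℓ ∣ M)
    (hdeg : ∀ w : Place kA (FRes A (M * ℓ)), w.deg = 1)
    {D1 : GaussDatum A (FBar (M * q)) (FRes A M)} (h1 : Old.IsGaussOne D1) :
    heckeDivK A M ℓ (divOf (K := kA) (H₂ D1)) = ((ℓ : ℤ) + 1) • divOf (K := kA) (H₂ D1) := by
  ext v
  rw [heckeDivK_apply_eq_ord A M ℓ hA hqMℓ hdeg (H₂_ne_zero h1) (fun v => divOf_apply' _ v) v,
    normAlong_betaK_H₂ hA hq2 hqℓ hqMℓ hℓ.out hℓM h1, S18lib.Cech.ord_pow, Finsupp.smul_apply,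
    divOf_apply', smul_eq_mul]
  push_cast
  ring

/-- **cusps go to cusps**: `T̄_ℓ` of a pole of `j̄` avoids the places where `j̄` is regular -/
theorem heckeDivK_single_apply_eq_zero (hℓk : ((ℓ : ℕ) : kA) ≠ 0)
    {Q Q' : Place kA (FRes A M)} (hQ : Gink.jK A M ∉ Q.toValuationSubring)
    (hQ' : Gink.jK A M ∈ Q'.toValuationSubring) :
    heckeDivK A M ℓ (Finsupp.single Q 1) Q' = 0 :=
  correspondence_single_apply_eq_zero (betaK A M ℓ) (alphaK A M ℓ) (betaK_integral A M ℓ)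
    (alphaK_integral A M ℓ) (Gink.jK A M) (fun W h => (betaK_jK_mem_iff hℓk W).mpr h) hQ hQ'

/-- **(E2): the Eisenstein eigenvector of the Brandt matrix.** -/
theorem sum_brandt_mul_ord_H₂ (hA : A.LiesOverPrime q) (hq2 : q ≠ 2) (hqℓ : q ≠ ℓ)
    (hqMℓ : ¬ q ∣ M * ℓ) (hℓM : ¬ ℓ ∣ M)
    (hdeg : ∀ w : Place kA (FRes A (M * ℓ)), w.deg = 1)
    {D1 : GaussDatum A (FBar (M * q)) (FRes A M)} (h1 : Old.IsGaussOne D1)
    (c : Fin (modS D1)) :
    ∑ c' : Fin (modS D1), nodeMatrix (modX₁ hA D1) (heckeDivK A M ℓ) c c' *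
        (modX₁ hA D1 c').ord (H₂ D1) =
      ((ℓ : ℤ) + 1) * (modX₁ hA D1 c).ord (H₂ D1) := by
  have hℓk : ((ℓ : ℕ) : kA) ≠ 0 := Gink.natCast_ne_zero_kRes hA (fun h => hqℓ
    ((Nat.prime_dvd_prime_iff_eq hq.out hℓ.out).mp h))
  refine sum_nodeMatrix_mul_ord (modX₁_injective hA) (heckeDivK A M ℓ) ((ℓ : ℤ) + 1)
    (heckeDivK_divOf_H₂ hA hq2 hqℓ hqMℓ hℓM hdeg h1) ?_ c
  intro Q hord hQ c'
  refine heckeDivK_single_apply_eq_zero hℓk (jK_not_mem_of_ord_H₂_ne_zero hA h1 hord hQ) ?_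
  exact (S36lib.Count.modX₁_mem hA h1 c').1

end RowSum

end Fermat.Agent.S44lib.Q4
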