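/-
S44lib / Q4 / NormRed  (helper2)  — Project LSq, blocks Q2a/Q4.

**(R): the reduction of the Hecke norm.**  Level `M q` (`q ∤ M` the residue characteristic of `A`),
`ℓ ∤ M q` prime, `D1` the first Gauss datum (`IsGaussOne`, with `O₁` the Gauss subring).  For every
`f ∈ FBar (M q)` with `red₁ f ≠ 0`:

  `red₁ (N_α (β f)) = N_ᾱ (β̄ (red₁ f))`     (`normStd_mem_and_redF`),

where `α, β : FBar (M q) → FBar (M q ℓ)` are the degeneracy maps over `ℚ̄` and
`ᾱ = alphaK`, `β̄ = betaK : FRes A M → FRes A (M ℓ)` those of the reduction.  Both sides are computed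
by the same `t`-expansion formula (`ConjNorm.qExpand_norm_heckeBetaBar` over `ℚ̄`,
`qExpand_normAlong_betaK` over `k`); a primitive `ℓ`-th root of unity of `A` reduces to a primitive
one since `ℓ ≠ q`.  No Gauss valuation of level `M q ℓ` is involved.

For the second Gauss datum `D2 = D1 ∘ w_q` the same holds, because `w_q` commutes with `N_α ∘ β`
(helper4's `S35lib/New/WqHecke.wqHecke_normStd_wq`).
-/
import Fermat.Agent.S44lib.Q4.NormH2
import Fermat.Agent.S37lib.ConjNorm.Reduce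
import Fermat.Agent.LSb.Kum.Inertial
import Fermat.Agent.S29lib.D.KummerHecke
import Fermat.Agent.S35lib.New.WqHecke

set_option autoImplicit false
set_option linter.unusedSectionVars false
set_option linter.style.haveILetI false

noncomputable section

namespace Fermat.Agent.S44lib.Q4

open AlgebraicCurve ModularCurve IntermediateField Fermat.Agent.S18lib Fermat.Agent.S37lib
open Fermat.Agent.S28lib Fermat.Agent.LSb Fermat.Agent.LSb.Unit Fermat.Agent.S29lib

local notation "Qb" => AlgebraicClosure ℚ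

variable {A : ValuationSubring (AlgebraicClosure ℚ)} {M ℓ q : ℕ} [NeZero M] [NeZero ℓ] [NeZero q]
variable [hq : Fact q.Prime]

local notation "kA" => IsLocalRing.ResidueField A

/-! ### roots of unity -/

/-- a nontrivial `ℓ`-th root of unity of `A` (`ℓ` prime, different from the residue
characteristic) reduces to a primitive `ℓ`-th root of unity of the residue field -/
theorem isPrimitiveRoot_residue_unit (hA : A.LiesOverPrime q) (hℓ : ℓ.Prime) (hqℓ : q ≠ ℓ)
    {ζA : Aˣ} (hpow : ζA ^ ℓ = 1) (hne : ζA ≠ 1) :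
    IsPrimitiveRoot (Units.map (IsLocalRing.residue A : A →* kA) ζA) ℓ := by
  set ξ : kAˣ := Units.map (IsLocalRing.residue A : A →* kA) ζA with hξ
  have hξpow : ξ ^ ℓ = 1 := by rw [hξ, ← map_pow, hpow, map_one]
  have hℓk : ((ℓ : ℕ) : kA) ≠ 0 := Gink.natCast_ne_zero_kRes hA (fun h => hqℓ
    ((Nat.prime_dvd_prime_iff_eq hq.out hℓ).mp h))
  have hξne : ξ ≠ 1 := by
    intro h1
    -- the geometric sum vanishes
    have hgeom : (∑ i ∈ Finset.range ℓ, (ζA : A) ^ i) * ((ζA : A) - 1) = 0 := by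
      rw [geom_sum_mul, ← Units.val_pow_eq_pow_val, hpow, Units.val_one, sub_self]
    have hsub : (ζA : A) - 1 ≠ 0 := by
      intro h0
      apply hne
      apply Units.ext
      rw [Units.val_one]
      exact sub_eq_zero.mp h0
    have hsum : ∑ i ∈ Finset.range ℓ, (ζA : A) ^ i = 0 :=
      (mul_eq_zero.mp hgeom).resolve_right hsub
    have hres := congrArg (IsLocalRing.residue A) hsum
    rw [map_sum, map_zero] at hres
    have h2 : IsLocalRing.residue A (ζA : A) = 1 := by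
      have := congrArg Units.val h1
      rwa [hξ, Units.coe_map, Units.val_one] at this
    simp only [map_pow, h2, one_pow, Finset.sum_const, Finset.card_range, nsmul_eq_mul,
      mul_one] at hres
    exact hℓk hres
  haveI : Fact ℓ.Prime := ⟨hℓ⟩
  rw [IsPrimitiveRoot.iff_orderOf]
  exact orderOf_eq_prime hξpow hξne

/-! ### the integral case -/

/-- **(R), integral case**: for `y ∈ A((t))` with `toL y ∈ FBar (M q)` and `ȳ = toK y ∈ FRes A M`,
`N_α (β y)` is again an integral series, whose reduction is `N_ᾱ (β̄ ȳ)`. -/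
theorem exists_normStd_reduction (hA : A.LiesOverPrime q) (hqℓ : q ≠ ℓ) (hℓ : ℓ.Prime)
    (hℓN : ¬ ℓ ∣ M * q) (hqMℓ : ¬ q ∣ M * ℓ) (hℓM : ¬ ℓ ∣ M)
    (y : LaurentSeries A) (hy : V.toL A y ∈ modularFunctionFieldBar (M * q)) (ybar : FRes A M)
    (hybar : (ybar : LaurentSeries kA) = V.toK A y) :
    ∃ (b : LaurentSeries A) (hb : V.toL A b ∈ modularFunctionFieldBar (M * q)),
      (⟨V.toL A b, hb⟩ : FBar (M * q)) = D.normStd (M * q) ℓ ⟨V.toL A y, hy⟩ ∧
      V.toK A b =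
        ((ES.normAlong (alphaK A M ℓ) (betaK A M ℓ ybar) : FRes A M) : LaurentSeries kA) := by
  classical
  haveI : Fact ℓ.Prime := ⟨hℓ⟩
  letI := algebraAlong (heckeAlphaBar Qb (M * q) ℓ)
  -- roots of unity
  have hζ : IsPrimitiveRoot (ConjNorm.modPolyDataQbar ℓ).ζ ℓ := (ConjNorm.modPolyDataQbar ℓ).prim
  obtain ⟨ζA, hζA⟩ := ConjNorm.exists_unit_eq A hζ
  have hζApow : ζA ^ ℓ = 1 := by
    apply Units.map_injective (f := (A.subtype : A →* Qb)) Subtype.val_injective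
    rw [map_pow, hζA, map_one]
    exact hζ.pow_eq_one
  have hζAne : ζA ≠ 1 := by
    intro h1
    have : (ConjNorm.modPolyDataQbar ℓ).ζ = 1 := by rw [← hζA, h1, map_one]
    exact hζ.ne_one hℓ.one_lt this
  set ζk : kAˣ := Units.map (IsLocalRing.residue A : A →* kA) ζA with hζk
  have hζkprim : IsPrimitiveRoot ζk ℓ := isPrimitiveRoot_residue_unit hA hℓ hqℓ hζApow hζAne
  -- the norm over `ℚ̄`
  have hnorm := ConjNorm.qExpand_norm_heckeBetaBar (M * q) ℓ hℓ hℓN hζ ⟨V.toL A y, hy⟩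
  set ν : FBar (M * q) :=
    Algebra.norm (FBar (M * q)) (heckeBetaBar Qb (M * q) ℓ ⟨V.toL A y, hy⟩) with hν
  -- the integral series
  set b' : LaurentSeries A := qExpand A (ℓ * (M * q * ℓ * (M * q * ℓ))) y *
    ∏ i ∈ Finset.range ℓ, qExpand A (M * q * (M * q) * ℓ) (twist (ζA ^ i) y) with hb'
  have hLb' : V.toL A b' = qExpand Qb (M * q * ℓ * (M * q * ℓ)) (ν : LaurentSeries Qb) := by
    rw [hnorm, hb', map_mul, map_prod]
    congr 1
    · exact coeffMap_qExpand _ _ _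
    · refine Finset.prod_congr rfl (fun i _ => ?_)
      show coeffMap A.subtype (qExpand A (M * q * (M * q) * ℓ) (twist (ζA ^ i) y)) = _
      rw [coeffMap_qExpand, coeffMap_twist, map_pow, hζA]
      rfl
  have hrange : b' ∈ Set.range (qExpand A (M * q * ℓ * (M * q * ℓ))) := by
    rw [mem_range_qExpand_iff]
    intro n hn
    have h1 : (V.toL A b').coeff n = 0 := by
      rw [hLb']; exact qExpand_coeff_of_not_dvd _ _ hn
    rw [V.toL_coeff] at h1
    exact_mod_cast h1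
  obtain ⟨b, hb⟩ := hrange
  have hLb : V.toL A b = (ν : LaurentSeries Qb) := by
    apply qExpand_injective (R := Qb) (M * q * ℓ * (M * q * ℓ))
    rw [← hLb', ← hb]
    exact (coeffMap_qExpand _ _ _).symm
  -- the reduction
  have hKb' : V.toK A b' = qExpand kA (M * q * (M * q) * ℓ) (normExpr ζk ℓ (V.toK A y)) := by
    rw [hb', map_mul, map_prod, normExpr_apply, map_mul, map_prod, qExpand_qExpand]
    congr 1
    · rw [show V.toK A (qExpand A (ℓ * (M * q * ℓ * (M * q * ℓ))) y) =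
        qExpand kA (ℓ * (M * q * ℓ * (M * q * ℓ))) (V.toK A y) from coeffMap_qExpand _ _ _]
      exact qExpand_congr (by ring) _
    · refine Finset.prod_congr rfl (fun i _ => ?_)
      show coeffMap (IsLocalRing.residue A) (qExpand A (M * q * (M * q) * ℓ) (twist (ζA ^ i) y)) = _
      rw [coeffMap_qExpand, coeffMap_twist, map_pow]
      rfl
  -- the norm over `k`
  have hk := qExpand_normAlong_betaK hA hqMℓ hℓ hℓM hζkprim ybar
  rw [hybar] at hk
  have hk' : qExpand kA (M * q * ℓ * (M * q * ℓ))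
      ((ES.normAlong (alphaK A M ℓ) (betaK A M ℓ ybar) : FRes A M) : LaurentSeries kA) =
      V.toK A b' := by
    have h1 := congrArg (qExpand kA (q * q)) hk
    rw [qExpand_qExpand, qExpand_qExpand] at h1
    rw [hKb', qExpand_congr (show M * q * ℓ * (M * q * ℓ) = q * q * (M * ℓ * (M * ℓ)) by ring),
      h1]
    exact qExpand_congr (by ring) _
  have hKb : V.toK A b =
      ((ES.normAlong (alphaK A M ℓ) (betaK A M ℓ ybar) : FRes A M) : LaurentSeries kA) := by
    apply qExpand_injective (R := kA) (M * q * ℓ * (M * q * ℓ))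
    rw [hk', ← hb]
    exact (coeffMap_qExpand _ _ _).symm
  refine ⟨b, ?_, ?_, hKb⟩
  · rw [hLb]; exact ν.2
  · exact Subtype.ext hLb

/-! ### the general case -/

theorem normStd_mul (N ℓ : ℕ) [NeZero N] [NeZero ℓ] (f g : FBar N) :
    D.normStd N ℓ (f * g) = D.normStd N ℓ f * D.normStd N ℓ g := by
  unfold D.normStd
  rw [map_mul]
  exact ES.normAlong_mul _ _ _

/-- `T̄_ℓ` on functions of the reduction: `f ↦ N_ᾱ (β̄ f)` -/
def heckeFunK (A : ValuationSubring (AlgebraicClosure ℚ)) (M ℓ : ℕ) [NeZero M] [NeZero ℓ]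
    (f : FRes A M) : FRes A M :=
  ES.normAlong (alphaK A M ℓ) (betaK A M ℓ f)

theorem heckeFunK_mul (f g : FRes A M) :
    heckeFunK A M ℓ (f * g) = heckeFunK A M ℓ f * heckeFunK A M ℓ g := by
  unfold heckeFunK
  rw [map_mul]
  exact ES.normAlong_mul _ _ _

theorem heckeFunK_ne_zero {f : FRes A M} (hf : f ≠ 0) : heckeFunK A M ℓ f ≠ 0 :=
  ES.normAlong_ne_zero _ (finiteAlong_alphaK A M ℓ) ((map_ne_zero _).2 hf)

section General

variable {D1 : GaussDatum A (FBar (M * q)) (FRes A M)}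

/-- the integral case, in terms of the Gauss datum -/
theorem normStd_integral (h1 : Old.IsGaussOne D1) (hA : A.LiesOverPrime q) (hqℓ : q ≠ ℓ)
    (hℓ : ℓ.Prime) (hℓN : ¬ ℓ ∣ M * q) (hqMℓ : ¬ q ∣ M * ℓ) (hℓM : ¬ ℓ ∣ M)
    {a : FBar (M * q)} (ha : a ∈ Kum.integralSet (M * q) A) :
    D.normStd (M * q) ℓ a ∈ D1.O ∧
      D1.redF (D.normStd (M * q) ℓ a) = heckeFunK A M ℓ (D1.redF a) := by
  obtain ⟨y, hy, rfl⟩ := ha
  obtain ⟨b, hb, hbν, hbK⟩ := exists_normStd_reduction hA hqℓ hℓ hℓN hqMℓ hℓM y hy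
    (D1.redF ⟨V.toL A y, hy⟩) (h1.red y hy)
  rw [← hbν]
  refine ⟨h1.mem b hb, Subtype.ext ?_⟩
  rw [h1.red b hb, hbK]
  rfl

/-- **(R)**: `red₁ (N_α (β f)) = N_ᾱ (β̄ (red₁ f))` for every `f` with `red₁ f ≠ 0`. -/
theorem normStd_mem_and_redF (h1 : Old.IsGaussOne D1)
    (hO1 : ∀ x ∈ D1.O, x ∈ V.gaussSubring (M * q) A) (hA : A.LiesOverPrime q) (hqℓ : q ≠ ℓ)
    (hℓ : ℓ.Prime) (hℓN : ¬ ℓ ∣ M * q) (hqMℓ : ¬ q ∣ M * ℓ) (hℓM : ¬ ℓ ∣ M)
    {f : FBar (M * q)} (hf : D1.redF f ≠ 0) :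
    D.normStd (M * q) ℓ f ∈ D1.O ∧
      D1.redF (D.normStd (M * q) ℓ f) = heckeFunK A M ℓ (D1.redF f) := by
  have hfO : f ∈ D1.O := D1.mem_of_redF_ne_zero hf
  obtain ⟨a, ha, b, hb, hb0, hab⟩ := Kum.exists_rep_of_mem_gaussSubring h1 (hO1 f hfO)
  obtain ⟨haO, hared⟩ := normStd_integral h1 hA hqℓ hℓ hℓN hqMℓ hℓM ha
  obtain ⟨hbO, hbred⟩ := normStd_integral h1 hA hqℓ hℓ hℓN hqMℓ hℓM hb
  have hbO' : b ∈ D1.O := D1.mem_of_redF_ne_zero hb0
  have hredab : D1.redF a = D1.redF f * D1.redF b := by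
    rw [← hab]; exact D1.redF_mul hfO hbO'
  -- the norm of `b` is a unit
  have hNb0 : D1.redF (D.normStd (M * q) ℓ b) ≠ 0 := by
    rw [hbred]; exact heckeFunK_ne_zero hb0
  have hmul : D.normStd (M * q) ℓ f * D.normStd (M * q) ℓ b = D.normStd (M * q) ℓ a := by
    rw [← normStd_mul, hab]
  have hNbne : D.normStd (M * q) ℓ b ≠ 0 := by
    intro h0
    rw [h0, D1.redF_zero] at hNb0
    exact hNb0 rfl
  have hfeq : D.normStd (M * q) ℓ f =
      D.normStd (M * q) ℓ a * (D.normStd (M * q) ℓ b)⁻¹ := by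
    rw [← hmul, mul_assoc, mul_inv_cancel₀ hNbne, mul_one]
  have hinvO : (D.normStd (M * q) ℓ b)⁻¹ ∈ D1.O := D1.inv_mem_of_redF_ne_zero hNb0
  have hfNO : D.normStd (M * q) ℓ f ∈ D1.O := by
    rw [hfeq]; exact D1.O.mul_mem _ _ haO hinvO
  refine ⟨hfNO, ?_⟩
  have h2 : D1.redF (D.normStd (M * q) ℓ f) * D1.redF (D.normStd (M * q) ℓ b) =
      D1.redF (D.normStd (M * q) ℓ a) := by
    rw [← D1.redF_mul hfNO hbO, hmul]
  rw [hared, hbred, hredab, heckeFunK_mul] at h2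
  exact mul_right_cancel₀ (heckeFunK_ne_zero hb0) h2

end General

/-! ### the second Gauss datum -/

section Second

variable {D1 D2 : GaussDatum A (FBar (M * q)) (FRes A M)}

/-- **(R) for the second Gauss datum** `D2 = D1 ∘ w_q`: `w_q` commutes with `N_α ∘ β`. -/
theorem normStd_mem_and_redF₂ (hqM : ¬ q ∣ M) (h1 : Old.IsGaussOne D1)
    (hO1 : ∀ x ∈ D1.O, x ∈ V.gaussSubring (M * q) A)
    (h2 : Old.IsGaussTwo D1 D2 (wqR M q hqM)) (hA : A.LiesOverPrime q) (hqℓ : q ≠ ℓ)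
    (hℓ : ℓ.Prime) (hℓN : ¬ ℓ ∣ M * q) (hqMℓ : ¬ q ∣ M * ℓ) (hℓM : ¬ ℓ ∣ M)
    {f : FBar (M * q)} (hf : D2.redF f ≠ 0) :
    D.normStd (M * q) ℓ f ∈ D2.O ∧
      D2.redF (D.normStd (M * q) ℓ f) = heckeFunK A M ℓ (D2.redF f) := by
  have hf' : D1.redF (Val.wq M q hq.out hqM f) ≠ 0 := by
    have := h2.redF f
    rw [this] at hf
    exact hf
  obtain ⟨hO, hred⟩ := normStd_mem_and_redF h1 hO1 hA hqℓ hℓ hℓN hqMℓ hℓM hf'
  rw [S35lib.New.wqHecke_normStd_wq M q hq.out hqM ℓ hqMℓ f] at hO hred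
  refine ⟨(h2.mem_iff _).2 hO, ?_⟩
  rw [h2.redF, h2.redF]
  exact hred

end Second

end Fermat.Agent.S44lib.Q4
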