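/-
S44lib / Q4 / PsiHecke  (helper2)  — Project LSq, blocks Q2a/Q4: the Hecke fields of the package.

Level `M q` (`q ∤ M` the residue characteristic of `A`), `ℓ ∤ M q` prime, `m` any modulus (`m = q` in
the package).  With helper6's class groups `Kap.Om A (FRes A M) m` and class maps `Kap.kapCl`:

* `heckeOm A M ℓ m`          : `T̄_ℓ = N_ᾱ ∘ β̄^*` on `Om A (FRes A M) m`;
* `kapCl_heckeOperatorBar`   : **`Ψ_hecke`, one component**: if a Gauss datum `G` satisfies (R)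
                               (`Q4/NormRed`), then `kapCl G m (T_ℓ x) = heckeOm (kapCl G m x)` on `J[m]`;
* `psi_heckeOperatorBar`     : **`Ψ_hecke`** for `Kap.psi D m`, `D` a nodal datum with
                               `V₁` = first Gauss datum, `V₂ = V₁ ∘ w_q`;
* `nodeHom x T m`            : the matrix of `T` on a family of places, acting on `ι → ZMod m`;
* `ordHom_heckeOm`           : **`res_hecke`, one component**: for a class `ω` with orders `≡ 0 (m)`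
                               off the family `x`, `ord_{x c} (T̄_ℓ ω) = (nodeHom x T̄_ℓ m (ord_{x ·} ω)) c`;
* `nodeHom_eisVec`           : **`eis`, one component**: `(ord_{x c} H₂)_c` is an eigenvector of
                               `nodeHom x T̄_ℓ m` with eigenvalue `ℓ + 1`, for ANY enumeration `x` of the
                               nodes.
-/
import Fermat.Agent.S44lib.Q4.NormRed
import Fermat.Agent.S44lib.Q4.RowSum
import Fermat.Agent.S44lib.Kap.NormInert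
import Fermat.Agent.S44lib.Kap.Psi
import Fermat.Agent.S29lib.D.AsmHeckeNorm
import Fermat.Agent.S29lib.H.TJ

set_option autoImplicit false
set_option linter.unusedSectionVars false
set_option linter.style.haveILetI false

noncomputable section

namespace Fermat.Agent.S44lib.Q4

open AlgebraicCurve ModularCurve IntermediateField Fermat.Agent.S18lib Fermat.Agent.S37lib
open Fermat.Agent.S28lib Fermat.Agent.LSb Fermat.Agent.LSb.Unit Fermat.Agent.S29lib
open Fermat.Agent.S44lib.Kap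

local notation "Qb" => AlgebraicClosure ℚ

variable {A : ValuationSubring (AlgebraicClosure ℚ)} {M ℓ q : ℕ} [NeZero M] [NeZero ℓ] [NeZero q]
variable [hq : Fact q.Prime]

local notation "kA" => IsLocalRing.ResidueField A

/-! ### `T̄_ℓ` on classes -/

variable (A M ℓ) in
/-- **`T̄_ℓ = N_ᾱ ∘ β̄^*` on the classes of functions of the reduction** -/
def heckeOm (m : ℕ) : Om A (FRes A M) m →+ Om A (FRes A M) m :=
  (Om.normAlong (alphaK A M ℓ) m (finiteAlong_alphaK A M ℓ)).comp (Om.map (betaK A M ℓ))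

theorem heckeOm_mk (m : ℕ) {φ : FRes A M} (h : φ ≠ 0) :
    heckeOm A M ℓ m (Om.mk φ h) = Om.mk (heckeFunK A M ℓ φ) (heckeFunK_ne_zero h) := by
  rw [heckeOm, AddMonoidHom.comp_apply, Om.map_mk, Om.normAlong_mk]
  rfl

/-! ### `Ψ_hecke` -/

section PsiHecke

/-- **`Ψ_hecke`, one component**: a Gauss datum satisfying (R) intertwines `T_ℓ` on `J₀(M q)[m]` with
`T̄_ℓ` on the classes of the reduction. -/
theorem kapCl_heckeOperatorBar {G : GaussDatum A (FBar (M * q)) (FRes A M)}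
    (hR : ∀ f : FBar (M * q), G.redF f ≠ 0 →
      G.redF (D.normStd (M * q) ℓ f) = heckeFunK A M ℓ (G.redF f))
    {g : ℕ} (hF : IsCurveOfGenus Qb (FBar (M * q)) g) (hℓ : ℓ.Prime) (hℓN : ¬ ℓ ∣ M * q)
    {m : ℕ} {x : JZero (M * q)} (hx : (m : ℤ) • x = 0) :
    kapCl G m (heckeOperatorBar (M * q) ⟨ℓ, hℓ⟩ x) = heckeOm A M ℓ m (kapCl G m x) := by
  obtain ⟨f, hrel, hred⟩ := exists_kummerRel G hx
  have hne : G.redF f ≠ 0 := by rw [hred]; exact kapFun_ne_zero _ _ _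
  have hne' : G.redF (D.normStd (M * q) ℓ f) ≠ 0 := by
    rw [hR f hne]; exact heckeFunK_ne_zero hne
  have hT := D.kummerRel_TJ (M * q) ⟨ℓ, hℓ⟩ hrel
  rw [D.normTJ_of_not_dvd (M * q) (ℓ := ⟨ℓ, hℓ⟩) hℓN, H.TJ_good (M * q) ⟨ℓ, hℓ⟩ hℓN] at hT
  rw [kapCl_of_kummerRel hF G hT hne', kapCl_of_kummerRel hF G hrel hne, heckeOm_mk]
  exact Om.mk_congr hne' (hR f hne)

end PsiHecke

/-! ### `Ψ_hecke` for the pair of classes -/

section Pair

/-- **`Ψ_hecke`**: for a nodal datum whose Gauss data are the first Gauss datum and its transport by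
`w_q`, the map `Ψ = Kap.psi D m` intertwines `T_ℓ` with `T̄_ℓ × T̄_ℓ`. -/
theorem psi_heckeOperatorBar (D : NodalDatum A (FBar (M * q)) (FRes A M) (FRes A M))
    (hqM : ¬ q ∣ M) (h1 : Old.IsGaussOne D.V₁)
    (hO1 : ∀ x ∈ D.V₁.O, x ∈ V.gaussSubring (M * q) A)
    (h2 : Old.IsGaussTwo D.V₁ D.V₂ (wqR M q hqM)) (hA : A.LiesOverPrime q)
    {g : ℕ} (hF : IsCurveOfGenus Qb (FBar (M * q)) g) (hℓ : ℓ.Prime) (hℓN : ¬ ℓ ∣ M * q)
    {m : ℕ} {x : JZero (M * q)} (hx : (m : ℤ) • x = 0) :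
    psi D m (heckeOperatorBar (M * q) ⟨ℓ, hℓ⟩ x) =
      AddMonoidHom.prodMap (heckeOm A M ℓ m) (heckeOm A M ℓ m) (psi D m x) := by
  have hqℓ : q ≠ ℓ := by
    rintro rfl
    exact hℓN (Dvd.intro_left M rfl)
  have hqMℓ : ¬ q ∣ M * ℓ := S35lib.New.wqHecke_not_dvd M q hq.out hqM hℓ hℓN
  have hℓM : ¬ ℓ ∣ M := fun h => hℓN (h.trans (Dvd.intro q rfl))
  have e1 := kapCl_heckeOperatorBar (G := D.V₁)
    (fun f hf => (normStd_mem_and_redF h1 hO1 hA hqℓ hℓ hℓN hqMℓ hℓM hf).2) hF hℓ hℓN hx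
  have e2 := kapCl_heckeOperatorBar (G := D.V₂)
    (fun f hf => (normStd_mem_and_redF₂ hqM h1 hO1 h2 hA hqℓ hℓ hℓN hqMℓ hℓM hf).2) hF hℓ hℓN hx
  rw [psi, e1, e2]
  rfl

end Pair

/-! ### the matrix of `T` on residue vectors -/

section NodeHom

variable {K F : Type*} [Field K] [Field F] [Algebra K F]
variable {ι : Type*} [Fintype ι]

/-- the matrix of `T` on the family `x`, acting on the residue vectors modulo `m` -/
def nodeHom (x : ι → Place K F) (T : Divisor K F →+ Divisor K F) (m : ℕ) :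
    (ι → ZMod m) →+ (ι → ZMod m) where
  toFun r := fun c => ∑ c' : ι, ((nodeMatrix x T c c' : ℤ) : ZMod m) * r c'
  map_zero' := by
    funext c
    simp
  map_add' r r' := by
    funext c
    simp only [Pi.add_apply, mul_add, Finset.sum_add_distrib]

theorem nodeHom_apply (x : ι → Place K F) (T : Divisor K F →+ Divisor K F) (m : ℕ)
    (r : ι → ZMod m) (c : ι) :
    nodeHom x T m r c = ∑ c' : ι, ((nodeMatrix x T c c' : ℤ) : ZMod m) * r c' := rfl

variable [HasPrincipalDivisors K F]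

/-- **(E1-core), generic form**: if the orders of `f` vanish modulo `m` off the family `x`, then
modulo `m` the value at `x c` of `T (div f)` only depends on the orders of `f` on the family. -/
theorem apply_node_divOf_of_cast_eq_zero {x : ι → Place K F} (hx : Function.Injective x) (m : ℕ)
    {f : F} (hf : ∀ Q : Place K F, (∀ c, Q ≠ x c) → ((Q.ord f : ℤ) : ZMod m) = 0)
    (T : Divisor K F →+ Divisor K F) (c : ι) :
    ((T (divOf (K := K) f) (x c) : ℤ) : ZMod m) =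
      ∑ c' : ι, ((nodeMatrix x T c c' : ℤ) : ZMod m) * (((x c').ord f : ℤ) : ZMod m) := by
  classical
  rw [map_eq_sum_single T (divOf (K := K) f) (x c),
    ← Finset.sum_filter_add_sum_filter_not (divOf (K := K) f).support
      (fun Q => ∃ c', Q = x c')]
  push_cast
  have hnon : ∑ Q ∈ (divOf (K := K) f).support with ¬ ∃ c', Q = x c',
      (((divOf (K := K) f) Q : ℤ) : ZMod m) *
        ((T (Finsupp.single Q 1) (x c) : ℤ) : ZMod m) = 0 := by
    refine Finset.sum_eq_zero fun Q hQ => ?_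
    rw [Finset.mem_filter] at hQ
    have hQ' : ∀ c', Q ≠ x c' := fun c' h' => hQ.2 ⟨c', h'⟩
    rw [divOf_apply', hf Q hQ', zero_mul]
  rw [hnon, add_zero]
  have key := sum_nodes_eq hx (divOf (K := K) f).support
    (fun Q => (((divOf (K := K) f) Q : ℤ) : ZMod m) *
      ((T (Finsupp.single Q 1) (x c) : ℤ) : ZMod m)) ?_
  · rw [key]
    refine Finset.sum_congr rfl fun c' _ => ?_
    rw [divOf_apply', nodeMatrix, mul_comm]
  · intro Q hQ
    rw [Finsupp.notMem_support_iff.mp hQ, Int.cast_zero, zero_mul]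

end NodeHom

/-! ### `res_hecke`, one component -/

section ResHecke

variable {ι : Type*} [Fintype ι]
variable [HasPrincipalDivisors (IsLocalRing.ResidueField A) (FRes A M)]
variable [HasPrincipalDivisors (IsLocalRing.ResidueField A) (FRes A (M * ℓ))]

/-- **`res_hecke`, one component**: for a class `ω` whose orders vanish modulo `m` off the family `x`,
the orders of `T̄_ℓ ω` on the family are given by the node matrix of `T̄_ℓ`. -/
theorem ordHom_heckeOm {x : ι → Place kA (FRes A M)} (hx : Function.Injective x)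
    (hA : A.LiesOverPrime q) (hqMℓ : ¬ q ∣ M * ℓ)
    (hdeg : ∀ w : Place kA (FRes A (M * ℓ)), w.deg = 1) (m : ℕ) (ω : Om A (FRes A M) m)
    (hω : ∀ Q : Place kA (FRes A M), (∀ c, Q ≠ x c) → Om.ordHom Q ω = 0) (c : ι) :
    Om.ordHom (x c) (heckeOm A M ℓ m ω) =
      nodeHom x (heckeDivK A M ℓ) m (fun c' => Om.ordHom (x c') ω) c := by
  obtain ⟨φ, h, rfl⟩ := Om.exists_rep ω
  rw [heckeOm_mk, Om.ordHom_mk, nodeHom_apply]
  have h1 := heckeDivK_apply_eq_ord A M ℓ hA hqMℓ hdeg h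
    (fun v => divOf_apply' (K := kA) φ v) (x c)
  rw [heckeFunK, ← h1]
  exact apply_node_divOf_of_cast_eq_zero hx m (fun Q hQ => hω Q hQ) (heckeDivK A M ℓ) c

end ResHecke

/-! ### `eis`, one component -/

section Eis

variable {ι : Type*} [Fintype ι]
variable [hℓ : Fact ℓ.Prime]
variable [HasPrincipalDivisors (IsLocalRing.ResidueField A) (FRes A M)]
variable [HasPrincipalDivisors (IsLocalRing.ResidueField A) (FRes A (M * ℓ))]

/-- a point of the divisor of `H₂` which is not a node is a pole of `j̄` -/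
theorem jK_not_mem_of_not_mem_modNodes {D1 : GaussDatum A (FBar (M * q)) (FRes A M)}
    (hA : A.LiesOverPrime q) (h1 : Old.IsGaussOne D1)
    {Q : Place kA (FRes A M)} (hord : Q.ord (H₂ D1) ≠ 0) (hQ : Q ∉ modNodes D1) :
    Gink.jK A M ∉ Q.toValuationSubring := by
  intro hj
  obtain ⟨P, hP, -⟩ := exists_poly_H₂ hA h1
  have hH : H₂ D1 ∈ Q.toValuationSubring := by
    rw [hP, Polynomial.aeval_eq_sum_range]
    refine Subring.sum_mem _ fun i _ => ?_
    rw [Algebra.smul_def]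
    exact Subring.mul_mem _ (Q.algebraMap_mem' _) (Subring.pow_mem _ hj i)
  have h0 : 0 ≤ Q.ord (H₂ D1) := (Fermat.Agent.ProgramR.FF.mem_iff_ord_nonneg Q _).mp hH
  have hpos : 0 < Q.ord (H₂ D1) := lt_of_le_of_ne h0 (Ne.symm hord)
  apply hQ
  rw [modNodes, mem_nodeSet]
  exact ⟨hj, (LSb.adicValuation_lt_one_iff (Q := Q)).2 (Or.inr hpos)⟩

/-- **(E2) for an arbitrary enumeration of the nodes** -/
theorem sum_nodeMatrix_mul_ord_H₂ {x : ι → Place kA (FRes A M)} (hx : Function.Injective x)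
    (hA : A.LiesOverPrime q) (hq2 : q ≠ 2) (hqℓ : q ≠ ℓ)
    (hqMℓ : ¬ q ∣ M * ℓ) (hℓM : ¬ ℓ ∣ M)
    (hdeg : ∀ w : Place kA (FRes A (M * ℓ)), w.deg = 1)
    {D1 : GaussDatum A (FBar (M * q)) (FRes A M)} (h1 : Old.IsGaussOne D1)
    (hnodes : ∀ Q : Place kA (FRes A M), Q ∈ modNodes D1 ↔ ∃ c, x c = Q) (c : ι) :
    ∑ c' : ι, nodeMatrix x (heckeDivK A M ℓ) c c' * (x c').ord (H₂ D1) =
      ((ℓ : ℤ) + 1) * (x c).ord (H₂ D1) := by
  have hℓk : ((ℓ : ℕ) : kA) ≠ 0 := Gink.natCast_ne_zero_kRes hA (fun h => hqℓ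
    ((Nat.prime_dvd_prime_iff_eq hq.out hℓ.out).mp h))
  refine sum_nodeMatrix_mul_ord hx (heckeDivK A M ℓ) ((ℓ : ℤ) + 1)
    (heckeDivK_divOf_H₂ hA hq2 hqℓ hqMℓ hℓM hdeg h1) ?_ c
  intro Q hord hQ c'
  have hQn : Q ∉ modNodes D1 := by
    intro hmem
    obtain ⟨c₀, hc₀⟩ := (hnodes Q).1 hmem
    exact hQ c₀ hc₀.symm
  refine heckeDivK_single_apply_eq_zero hℓk (jK_not_mem_of_not_mem_modNodes hA h1 hord hQn) ?_
  exact ((hnodes (x c')).2 ⟨c', rfl⟩).1

/-- the Eisenstein vector modulo `m` on an enumeration of the nodes -/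
def eisVec (D1 : GaussDatum A (FBar (M * q)) (FRes A M)) (x : ι → Place kA (FRes A M)) (m : ℕ) :
    ι → ZMod m := fun c => (((x c).ord (H₂ D1) : ℤ) : ZMod m)

/-- **`eis`, one component**: the Eisenstein vector is an eigenvector of the node matrix of `T̄_ℓ`,
with eigenvalue `ℓ + 1`. -/
theorem nodeHom_eisVec {x : ι → Place kA (FRes A M)} (hx : Function.Injective x)
    (hA : A.LiesOverPrime q) (hq2 : q ≠ 2) (hqℓ : q ≠ ℓ)
    (hqMℓ : ¬ q ∣ M * ℓ) (hℓM : ¬ ℓ ∣ M)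
    (hdeg : ∀ w : Place kA (FRes A (M * ℓ)), w.deg = 1)
    {D1 : GaussDatum A (FBar (M * q)) (FRes A M)} (h1 : Old.IsGaussOne D1)
    (hnodes : ∀ Q : Place kA (FRes A M), Q ∈ modNodes D1 ↔ ∃ c, x c = Q) (m : ℕ) :
    nodeHom x (heckeDivK A M ℓ) m (eisVec D1 x m) = ((ℓ : ℤ) + 1) • eisVec D1 x m := by
  funext c
  have h := sum_nodeMatrix_mul_ord_H₂ hx hA hq2 hqℓ hqMℓ hℓM hdeg h1 hnodes c
  have h' := congrArg (fun z : ℤ => (z : ZMod m)) h
  simp only [Int.cast_sum, Int.cast_mul] at h'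
  rw [nodeHom_apply, Pi.smul_apply, zsmul_eq_mul]
  exact h'

/-- the same for every multiple of the Eisenstein vector -/
theorem nodeHom_smul_eisVec {x : ι → Place kA (FRes A M)} (hx : Function.Injective x)
    (hA : A.LiesOverPrime q) (hq2 : q ≠ 2) (hqℓ : q ≠ ℓ)
    (hqMℓ : ¬ q ∣ M * ℓ) (hℓM : ¬ ℓ ∣ M)
    (hdeg : ∀ w : Place kA (FRes A (M * ℓ)), w.deg = 1)
    {D1 : GaussDatum A (FBar (M * q)) (FRes A M)} (h1 : Old.IsGaussOne D1)
    (hnodes : ∀ Q : Place kA (FRes A M), Q ∈ modNodes D1 ↔ ∃ c, x c = Q) (m : ℕ) (t : ℤ) :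
    nodeHom x (heckeDivK A M ℓ) m (t • eisVec D1 x m) =
      ((ℓ : ℤ) + 1) • (t • eisVec D1 x m) := by
  rw [map_zsmul, nodeHom_eisVec hx hA hq2 hqℓ hqMℓ hℓM hdeg h1 hnodes m, smul_comm]

end Eis

/-! ### the package-shaped statements: both components -/

section Package

variable [HasPrincipalDivisors (IsLocalRing.ResidueField A) (FRes A M)]
variable [HasPrincipalDivisors (IsLocalRing.ResidueField A) (FRes A (M * ℓ))]

variable (A M ℓ) in
/-- **`TΩ ℓ`**: `T̄_ℓ` on both components -/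
def heckeOmPair (m : ℕ) :
    Om A (FRes A M) m × Om A (FRes A M) m →+ Om A (FRes A M) m × Om A (FRes A M) m :=
  AddMonoidHom.prodMap (heckeOm A M ℓ m) (heckeOm A M ℓ m)

variable (ℓ) in
/-- **`TR ℓ`**: the node matrices of `T̄_ℓ` on both components -/
def nodeHomPair (D : NodalDatum A (FBar (M * q)) (FRes A M) (FRes A M)) (m : ℕ) :
    (Fin D.s → ZMod m) × (Fin D.s → ZMod m) →+ (Fin D.s → ZMod m) × (Fin D.s → ZMod m) :=
  AddMonoidHom.prodMap (nodeHom D.x₁ (heckeDivK A M ℓ) m) (nodeHom D.x₂ (heckeDivK A M ℓ) m)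

/-- **the Eisenstein subgroup**: pairs of multiples of the Eisenstein vectors of the two components -/
def eisSub (D : NodalDatum A (FBar (M * q)) (FRes A M) (FRes A M)) (m : ℕ) :
    AddSubgroup ((Fin D.s → ZMod m) × (Fin D.s → ZMod m)) :=
  AddSubgroup.prod (AddSubgroup.zmultiples (eisVec D.V₁ D.x₁ m))
    (AddSubgroup.zmultiples (eisVec D.V₁ D.x₂ m))

theorem mem_eisSub {D : NodalDatum A (FBar (M * q)) (FRes A M) (FRes A M)} {m : ℕ}
    {r : (Fin D.s → ZMod m) × (Fin D.s → ZMod m)} :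
    r ∈ eisSub D m ↔ (∃ t : ℤ, t • eisVec D.V₁ D.x₁ m = r.1) ∧
      ∃ t : ℤ, t • eisVec D.V₁ D.x₂ m = r.2 := by
  rw [eisSub, AddSubgroup.mem_prod, AddSubgroup.mem_zmultiples_iff,
    AddSubgroup.mem_zmultiples_iff]

/-- **`res_hecke`**: `res (TΩ ℓ ω) = TR ℓ (res ω)` for pairs of classes with orders `≡ 0 (m)` off the
nodes (in particular for `ω = Ψ x`, `x ∈ J[m]`: `Kap.ordHom_psi_eq_zero_of_ne₁/₂`). -/
theorem resMap_heckeOmPair (D : NodalDatum A (FBar (M * q)) (FRes A M) (FRes A M))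
    (hx₁ : Function.Injective D.x₁) (hx₂ : Function.Injective D.x₂)
    (hA : A.LiesOverPrime q) (hqMℓ : ¬ q ∣ M * ℓ)
    (hdeg : ∀ w : Place kA (FRes A (M * ℓ)), w.deg = 1) (m : ℕ)
    (ω : Om A (FRes A M) m × Om A (FRes A M) m)
    (hω₁ : ∀ Q : Place kA (FRes A M), (∀ c, Q ≠ D.x₁ c) → Om.ordHom Q ω.1 = 0)
    (hω₂ : ∀ Q : Place kA (FRes A M), (∀ c, Q ≠ D.x₂ c) → Om.ordHom Q ω.2 = 0) :
    resMap D m (heckeOmPair A M ℓ m ω) = nodeHomPair ℓ D m (resMap D m ω) := by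
  refine Prod.ext ?_ ?_
  · funext c
    exact ordHom_heckeOm hx₁ hA hqMℓ hdeg m ω.1 hω₁ c
  · funext c
    exact ordHom_heckeOm hx₂ hA hqMℓ hdeg m ω.2 hω₂ c

variable [hℓ : Fact ℓ.Prime]

/-- **`eis`**: `TR ℓ = ℓ + 1` on the Eisenstein subgroup. -/
theorem nodeHomPair_eq_smul_of_mem_eisSub
    (D : NodalDatum A (FBar (M * q)) (FRes A M) (FRes A M))
    (hx₁ : Function.Injective D.x₁) (hx₂ : Function.Injective D.x₂)
    (hA : A.LiesOverPrime q) (hq2 : q ≠ 2) (hqℓ : q ≠ ℓ) (hqMℓ : ¬ q ∣ M * ℓ) (hℓM : ¬ ℓ ∣ M)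
    (hdeg : ∀ w : Place kA (FRes A (M * ℓ)), w.deg = 1) (h1 : Old.IsGaussOne D.V₁)
    (hn₁ : ∀ Q : Place kA (FRes A M), Q ∈ modNodes D.V₁ ↔ ∃ c, D.x₁ c = Q)
    (hn₂ : ∀ Q : Place kA (FRes A M), Q ∈ modNodes D.V₁ ↔ ∃ c, D.x₂ c = Q) (m : ℕ)
    {r : (Fin D.s → ZMod m) × (Fin D.s → ZMod m)} (hr : r ∈ eisSub D m) :
    nodeHomPair ℓ D m r = ((ℓ : ℤ) + 1) • r := by
  obtain ⟨⟨t₁, ht₁⟩, ⟨t₂, ht₂⟩⟩ := mem_eisSub.1 hr
  refine Prod.ext ?_ ?_
  · show nodeHom D.x₁ (heckeDivK A M ℓ) m r.1 = ((ℓ : ℤ) + 1) • r.1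
    rw [← ht₁]
    exact nodeHom_smul_eisVec hx₁ hA hq2 hqℓ hqMℓ hℓM hdeg h1 hn₁ m t₁
  · show nodeHom D.x₂ (heckeDivK A M ℓ) m r.2 = ((ℓ : ℤ) + 1) • r.2
    rw [← ht₂]
    exact nodeHom_smul_eisVec hx₂ hA hq2 hqℓ hqMℓ hℓM hdeg h1 hn₂ m t₂

end Package

/-! ### the enumerations of the modular nodal datum -/

section ModNodes

variable [HasPrincipalDivisors (IsLocalRing.ResidueField A) (FRes A M)]

theorem mem_modNodes_iff_modX₁ (hA : A.LiesOverPrime q)
    {D1 : GaussDatum A (FBar (M * q)) (FRes A M)} (h1 : Old.IsGaussOne D1)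
    (Q : Place kA (FRes A M)) : Q ∈ modNodes D1 ↔ ∃ c, modX₁ hA D1 c = Q :=
  ⟨fun h => exists_modX₁_eq hA h1 h, fun ⟨c, hc⟩ => hc ▸ S36lib.Count.modX₁_mem hA h1 c⟩

theorem mem_modNodes_iff_modX₂ {D1 : GaussDatum A (FBar (M * q)) (FRes A M)}
    (h1 : Old.IsGaussOne D1) (Q : Place kA (FRes A M)) :
    Q ∈ modNodes D1 ↔ ∃ c, modX₂ D1 c = Q :=
  ⟨fun h => nodeEnum_surjective _ (H₂_ne_zero h1) h, fun ⟨c, hc⟩ => hc ▸ modX₂_mem c⟩

end ModNodes

end Fermat.Agent.S44lib.Q4
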