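/-
S44lib / Q4 / Inst  (helper2)  — Project LSq, block Q4: THE HECKE INPUTS OF THE GEOMETRIC PACKAGE.

For the concrete nodal package `I = Kap.modNModInst hqM hA h5` at level `M q` (`q ≥ 5`, `q ∤ M`; both
components `FRes A M`, nodal datum `Kap.modNod hqM hA`), the structure `Kap.HeckeInputs I` of
`Kap/Package.lean` is instantiated:

* `TΩ ℓ  = T̄_ℓ × T̄_ℓ`                        (`modTΩ`,  `Q4/PsiHecke.heckeOmPair`);
* `TR ℓ  = ` the node matrices of `T̄_ℓ`        (`modTR`,  `Q4/PsiHecke.nodeHomPair`; `0` when `q ∣ M ℓ`);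
* `Eis   = ` multiples of the Eisenstein vectors (`modEis`, `Q4/PsiHecke.eisSub`);
* `Ψ_hecke`, `res_hecke`, `eis`                   (`psi_heckeOperatorBar`, `resMap_heckeOmPair`,
                                                   `nodeHomPair_eq_smul_of_mem_eisSub`).

Result: `modHeckeInputs hqM hA h5 : Kap.HeckeInputs (Kap.modNModInst hqM hA h5)`.
-/
import Fermat.Agent.S44lib.Q4.PsiHecke
import Fermat.Agent.S44lib.Kap.Package

set_option autoImplicit false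
set_option linter.unusedSectionVars false
set_option linter.style.haveILetI false

noncomputable section

namespace Fermat.Agent.S44lib.Q4

open AlgebraicCurve ModularCurve Fermat.Agent.S18lib Fermat.Agent.S37lib
open Fermat.Agent.LSb Fermat.Agent.LSb.Unit Fermat.Agent.S33lib Fermat.Agent.S33lib.N
open Fermat.Agent.S44lib.Kap Fermat.Agent.S19lib

local notation "Qb" => AlgebraicClosure ℚ

variable {M q : ℕ} [NeZero M] [NeZero q] [hq : Fact q.Prime] {A : ValuationSubring Qb}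

local notation "kA" => IsLocalRing.ResidueField A

/-- all places of `FRes A N` (`q ∤ N`) have degree one -/
theorem deg_eq_one_FRes (hA : A.LiesOverPrime q) {N : ℕ} [NeZero N] (hqN : ¬ q ∣ N)
    (w : Place kA (FRes A N)) : w.deg = 1 :=
  (B3.exists_isCurveOfGenus_FRes A N hqN hA).choose_spec.deg_eq_one w

variable (hqM : ¬ q ∣ M) (hA : A.LiesOverPrime q) (h5 : 5 ≤ q)

/-- **`TΩ ℓ`** for the modular package: `T̄_ℓ` on both components -/
def modTΩ (ℓ : Nat.Primes) :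
    QOm (modNModInst hqM hA h5) →+ QOm (modNModInst hqM hA h5) :=
  haveI : NeZero (ℓ : ℕ) := ⟨ℓ.2.ne_zero⟩
  heckeOmPair A M (ℓ : ℕ) q

/-- **`TR ℓ`** for the modular package: the node matrices of `T̄_ℓ` (`0` if `q ∣ M ℓ`) -/
def modTR (ℓ : Nat.Primes) :
    QRes (modNModInst hqM hA h5) →+ QRes (modNModInst hqM hA h5) :=
  haveI : NeZero (ℓ : ℕ) := ⟨ℓ.2.ne_zero⟩
  if h : ¬ q ∣ M * (ℓ : ℕ) then
    haveI : HasPrincipalDivisors kA (FRes A (M * (ℓ : ℕ))) := modHpdK h hA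
    nodeHomPair (ℓ : ℕ) (modNod hqM hA) q
  else 0

/-- **`Eis`** for the modular package -/
def modEis : AddSubgroup (QRes (modNModInst hqM hA h5)) :=
  eisSub (modNod hqM hA) q

theorem modTR_of_not_dvd (ℓ : Nat.Primes) (h : ¬ q ∣ M * (ℓ : ℕ)) :
    modTR hqM hA h5 ℓ =
      (haveI : NeZero (ℓ : ℕ) := ⟨ℓ.2.ne_zero⟩
       haveI : HasPrincipalDivisors kA (FRes A (M * (ℓ : ℕ))) := modHpdK h hA
       nodeHomPair (ℓ : ℕ) (modNod hqM hA) q) := by
  unfold modTR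
  exact dif_pos h

/-- **`Ψ_hecke`** -/
theorem modPsi_heckeOperatorBar (ℓ : Nat.Primes) (hℓN : ¬ (ℓ : ℕ) ∣ M * q)
    (x : JZero (M * q)) (hx : x ∈ tors (M * q) (q : ℤ)) :
    QPsi (modNModInst hqM hA h5) (heckeOperatorBar (M * q) ℓ x) =
      modTΩ hqM hA h5 ℓ (QPsi (modNModInst hqM hA h5) x) := by
  haveI : NeZero (ℓ : ℕ) := ⟨ℓ.2.ne_zero⟩
  exact psi_heckeOperatorBar (modNod hqM hA) hqM (modD1_isGaussOne hqM hA)
    (fun _ hy => Val.gaussOne_O_le M q A hqM hA hy) (modD2'_isGaussTwo hqM hA) hA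
    (modG_spec M q) ℓ.2 hℓN (smul_eq_zero_of_mem_tors hx)

/-- **`res_hecke`** -/
theorem modRes_hecke (ℓ : Nat.Primes) (hℓN : ¬ (ℓ : ℕ) ∣ M * q)
    (x : JZero (M * q)) (hx : x ∈ tors (M * q) (q : ℤ)) :
    QresHom (modNModInst hqM hA h5)
        (modTΩ hqM hA h5 ℓ (QPsi (modNModInst hqM hA h5) x)) =
      modTR hqM hA h5 ℓ (QresHom (modNModInst hqM hA h5) (QPsi (modNModInst hqM hA h5) x)) := by
  haveI : NeZero (ℓ : ℕ) := ⟨ℓ.2.ne_zero⟩
  have hqMℓ : ¬ q ∣ M * (ℓ : ℕ) := S35lib.New.wqHecke_not_dvd M q hq.out hqM ℓ.2 hℓN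
  haveI : HasPrincipalDivisors kA (FRes A M) := modHpdK hqM hA
  haveI : HasPrincipalDivisors kA (FRes A (M * (ℓ : ℕ))) := modHpdK hqMℓ hA
  rw [modTR_of_not_dvd hqM hA h5 ℓ hqMℓ]
  have hx0 := smul_eq_zero_of_mem_tors hx
  exact resMap_heckeOmPair (modNod hqM hA) (modX₁_injective hA) modX₂_injective hA hqMℓ
    (deg_eq_one_FRes hA hqMℓ) q _
    (fun Q hQ => ordHom_psi_eq_zero_of_ne₁ (modNRed hqM hA h5) (modCtx hqM hA h5) hx0 hQ)
    (fun Q hQ => ordHom_psi_eq_zero_of_ne₂ (modNRed hqM hA h5) (modCtx hqM hA h5) hx0 hQ)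

/-- **`eis`** -/
theorem modEis_hecke (ℓ : Nat.Primes) (hℓN : ¬ (ℓ : ℕ) ∣ M * q) (hℓq : (ℓ : ℕ) ≠ q)
    (r : QRes (modNModInst hqM hA h5)) (hr : r ∈ modEis hqM hA h5) :
    modTR hqM hA h5 ℓ r = (((ℓ : ℕ) : ℤ) + 1) • r := by
  haveI : NeZero (ℓ : ℕ) := ⟨ℓ.2.ne_zero⟩
  haveI : Fact (ℓ : ℕ).Prime := ⟨ℓ.2⟩
  have hqMℓ : ¬ q ∣ M * (ℓ : ℕ) := S35lib.New.wqHecke_not_dvd M q hq.out hqM ℓ.2 hℓN
  have hℓM : ¬ (ℓ : ℕ) ∣ M := fun h => hℓN (h.trans (Dvd.intro q rfl))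
  haveI : HasPrincipalDivisors kA (FRes A M) := modHpdK hqM hA
  haveI : HasPrincipalDivisors kA (FRes A (M * (ℓ : ℕ))) := modHpdK hqMℓ hA
  rw [modTR_of_not_dvd hqM hA h5 ℓ hqMℓ]
  exact nodeHomPair_eq_smul_of_mem_eisSub (modNod hqM hA) (modX₁_injective hA) modX₂_injective hA
    (by omega) (Ne.symm hℓq) hqMℓ hℓM (deg_eq_one_FRes hA hqMℓ) (modD1_isGaussOne hqM hA)
    (mem_modNodes_iff_modX₁ hA (modD1_isGaussOne hqM hA))
    (mem_modNodes_iff_modX₂ (modD1_isGaussOne hqM hA)) q hr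

/-- **the Hecke inputs of the geometric package at level `M q`** -/
def modHeckeInputs : HeckeInputs (modNModInst hqM hA h5) where
  TΩ := modTΩ hqM hA h5
  TR := modTR hqM hA h5
  Eis := modEis hqM hA h5
  Ψ_hecke := fun ℓ hℓ x hx => modPsi_heckeOperatorBar hqM hA h5 ℓ hℓ x hx
  res_hecke := fun ℓ hℓ x hx => modRes_hecke hqM hA h5 ℓ hℓ x hx
  eis := fun ℓ hℓ hℓq r hr => modEis_hecke hqM hA h5 ℓ hℓ hℓq r hr

@[simp] theorem modHeckeInputs_TΩ : (modHeckeInputs hqM hA h5).TΩ = modTΩ hqM hA h5 := rfl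

@[simp] theorem modHeckeInputs_TR : (modHeckeInputs hqM hA h5).TR = modTR hqM hA h5 := rfl

/-- the Eisenstein subgroup of the Hecke inputs is literally `eisSub (modNod hqM hA) q` -/
theorem modHeckeInputs_Eis :
    (modHeckeInputs hqM hA h5).Eis = eisSub (modNod hqM hA) q := rfl

end Fermat.Agent.S44lib.Q4
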